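import Fermat.Agent.S27.AR.Rep

/-!
# S27 / block AR : adding places to a divisor

`D + P := D + Finsupp.single P 1`;  `(D + P) P = D P + 1`, `(D + P) v = D v` for `v ≠ P` (`Finsupp.add_apply`, `Finsupp.single_apply`/`single_eq_same`/`single_eq_of_ne`).

## key S27/AR-S1 : `repOf_add_sum`, `repOf_add_single`  (~150 lines)
`E := D + ∑ P ∈ s, single P 1`; `E v = D v + 1` for `v ∈ s`, `= D v` otherwise (`Finsupp.finset_sum_apply`, `Finset.sum_ite_eq`-type; prove it first as `add_sum_apply`).
(≥) `repartitionsOf_mono` (`D ≤ E`) and `sgl P (t P) ∈ 𝔸(E)` by `sgl_mem_iff` (`Submodule.span_le`, `Set.image_subset_iff`).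
(≤) `α ∈ 𝔸(E)`.  For `P ∈ s`: `exists_sub_smul h P (hα P) (ht P _)` gives `c P` with `adic (α P - c P • t P) ≤ exp (D P)` (`D P + 1 - 1`).  `choose!`.  `β := ∑ P ∈ s, c P • sgl P (t P) ∈ span` (`Submodule.sum_mem`, `smul_mem`, `subset_span`),
`α = (α - β) + β`, `α - β ∈ 𝔸(D)`: at `v ∈ s`: `β v = c v • t v` (`coe_sum`, `coe_smul`, `sgl_apply_self/ne`, `Finset.sum_eq_single v`); at `v ∉ s`: `β v = 0`.
`repOf_add_single` : `s = {P}`, `Finset.sum_singleton`, `Set.image_singleton` (`Finset.coe_singleton`).
## key S27/AR-S2 : `sgl_mem_sup_iff`  (~120 lines)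
(→) `Submodule.mem_sup`: `sgl P t = α + β`, `α ∈ 𝔸(D)`, `β = cst f`.  At `v ≠ P`: `0 = α v + f`, so `adic f = adic (α v) ≤ exp (D v)` (`Valuation.map_neg`).  At `P`: `f = t - α P`, `adic (α P) ≤ exp (D P) < exp (D P + 1) = adic t`, so
`adic f = exp (D P + 1)` (`Valuation.map_sub_eq_of_lt_right`/`map_add_eq_of_lt_..`).  Hence `f ∈ L(D + P)`, `f ∉ L(D)`.
(←) `f ∈ L(D+P) ∖ L(D)`: `adic_P f = exp (D P + 1)` (otherwise `adic_le_pred` puts `f` in `L(D)`; the other places are unchanged).  `exists_sub_smul h P (ht.le) this` gives `c`, `adic (t - c • f) ≤ exp (D P)`.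
`sgl P t = (sgl P t - c • cst f) + c • cst f`; the first term is in `𝔸(D)` (at `v ≠ P`: `- c • f`, `adic_smul_le`), the second is principal (`cst_smul`, `mem_principal_iff`).
## key S27/AR-S3 : `L_le_sup_span`  (~50 lines)
`g ∈ L(D+P)`; `adic_P f = exp (D P + 1)` as above; `exists_sub_smul` gives `c` with `adic_P (g - c • f) ≤ exp (D P)`; at `v ≠ P` both are `≤ exp (D v)`.  `g = (g - c • f) + c • f`.
(Or deduce it from `S37.RiemannAux.exists_sub_smul_mem` with `E = D + P`, `LL = riemannRochSpace` definitionally.)
-/

set_option autoImplicit false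

noncomputable section

namespace Fermat.Agent.S27.AR

open AlgebraicCurve Fermat.Agent.S37 WithZero

variable {K F : Type*} [Field K] [Field F] [Algebra K F]

theorem add_single_apply_self (D : Divisor K F) (P : Place K F) :
    (D + Finsupp.single P 1 : Divisor K F) P = D P + 1 := by
  rw [Finsupp.add_apply, Finsupp.single_eq_same]

theorem add_single_apply_ne (D : Divisor K F) {P v : Place K F} (h : v ≠ P) :
    (D + Finsupp.single P 1 : Divisor K F) v = D v := by
  classical
  rw [Finsupp.add_apply, Finsupp.single_apply, if_neg (Ne.symm h), add_zero]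

theorem le_add_single (D : Divisor K F) (P : Place K F) : D ≤ D + Finsupp.single P 1 := by
  classical
  intro v
  rw [Finsupp.add_apply, Finsupp.single_apply]
  split_ifs <;> simp

theorem add_sum_apply_mem (D : Divisor K F) {s : Finset (Place K F)} {v : Place K F} (hv : v ∈ s) :
    (D + ∑ P ∈ s, Finsupp.single P 1 : Divisor K F) v = D v + 1 := by
  classical
  rw [Finsupp.add_apply, Finsupp.finsetSum_apply, Finset.sum_eq_single v]
  · rw [Finsupp.single_eq_same]
  · intro b _ hb
    rw [Finsupp.single_apply, if_neg hb]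
  · intro h; exact absurd hv h

theorem add_sum_apply_not_mem (D : Divisor K F) {s : Finset (Place K F)} {v : Place K F}
    (hv : v ∉ s) : (D + ∑ P ∈ s, Finsupp.single P 1 : Divisor K F) v = D v := by
  classical
  rw [Finsupp.add_apply, Finsupp.finsetSum_apply, Finset.sum_eq_zero, add_zero]
  intro b hb
  rw [Finsupp.single_apply, if_neg]
  rintro rfl; exact hv hb

theorem le_add_sum (D : Divisor K F) (s : Finset (Place K F)) :
    D ≤ D + ∑ P ∈ s, Finsupp.single P 1 := by
  classical
  intro v
  by_cases hv : v ∈ s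
  · rw [add_sum_apply_mem D hv]; omega
  · rw [add_sum_apply_not_mem D hv]

variable [IsAlgClosed K] [CharZero K]

/-- [S27/AR-S1] -/
theorem repOf_add_sum (h : IsFF K F) (D : Divisor K F) (s : Finset (Place K F)) (t : Place K F → F)
    (ht : ∀ P ∈ s, P.adicValuation (t P) = exp (D P + 1)) :
    repartitionsOf (D + ∑ P ∈ s, Finsupp.single P 1) =
      repartitionsOf D ⊔ Submodule.span K ((fun P => sgl P (t P)) '' (s : Set (Place K F))) := by
  classical
  apply le_antisymm
  · intro α hα
    rw [mem_repOf_iff] at hα
    have hc : ∀ P : Place K F, ∃ c : K, P ∈ s → P.adicValuation (α.1 P - c • t P) ≤ exp (D P) := by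
      intro P
      by_cases hP : P ∈ s
      · have h1 := hα P
        rw [add_sum_apply_mem D hP] at h1
        obtain ⟨c, hc⟩ := exists_sub_smul h P h1 (ht P hP)
        rw [add_sub_cancel_right] at hc
        exact ⟨c, fun _ => hc⟩
      · exact ⟨0, fun h => absurd h hP⟩
    choose c hc using hc
    set β : ↥(repartitions K F) := ∑ P ∈ s, c P • sgl P (t P) with hβ
    have hβmem : β ∈ Submodule.span K ((fun P => sgl P (t P)) '' (s : Set (Place K F))) := by
      apply Submodule.sum_mem
      intro P hP
      exact Submodule.smul_mem _ _ (Submodule.subset_span ⟨P, hP, rfl⟩)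
    have hβv : ∀ v, β.1 v = if v ∈ s then c v • t v else 0 := by
      intro v
      rw [hβ, coe_sum]
      split_ifs with hv
      · rw [Finset.sum_eq_single v]
        · rw [coe_smul, sgl_apply_self]
        · intro b _ hb
          rw [coe_smul, sgl_apply_ne (Ne.symm hb), smul_zero]
        · intro h; exact absurd hv h
      · apply Finset.sum_eq_zero
        intro b hb
        rw [coe_smul, sgl_apply_ne, smul_zero]
        rintro rfl; exact hv hb
    have hαβ : α - β ∈ repartitionsOf D := by
      rw [mem_repOf_iff]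
      intro v
      rw [coe_sub, hβv]
      split_ifs with hv
      · exact hc v hv
      · rw [sub_zero]
        have := hα v
        rwa [add_sum_apply_not_mem D hv] at this
    have : α = (α - β) + β := by abel
    rw [this]
    exact Submodule.add_mem_sup hαβ hβmem
  · apply sup_le
    · intro α hα
      rw [mem_repOf_iff] at hα ⊢
      intro v
      exact (hα v).trans (exp_le_exp.mpr (le_add_sum D s v))
    · rw [Submodule.span_le]
      rintro _ ⟨P, hP, rfl⟩
      show sgl P (t P) ∈ repartitionsOf _
      rw [sgl_mem_iff, add_sum_apply_mem D hP, ht P hP]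

/-- [S27/AR-S1] -/
theorem repOf_add_single (h : IsFF K F) (D : Divisor K F) (P : Place K F) {t : F}
    (ht : P.adicValuation t = exp (D P + 1)) :
    repartitionsOf (D + Finsupp.single P 1) = repartitionsOf D ⊔ Submodule.span K {sgl P t} := by
  classical
  have := repOf_add_sum h D {P} (fun _ => t) (by intro Q hQ; rw [Finset.mem_singleton] at hQ; subst hQ; exact ht)
  rwa [Finset.sum_singleton, Finset.coe_singleton, Set.image_singleton] at this

omit [IsAlgClosed K] [CharZero K] in
theorem adic_eq_of_mem_of_not_mem (D : Divisor K F) (P : Place K F) {f : F}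
    (hf : f ∈ riemannRochSpace (D + Finsupp.single P 1)) (hf' : f ∉ riemannRochSpace D) :
    P.adicValuation f = exp (D P + 1) := by
  by_contra hne
  apply hf'
  rw [mem_L_iff] at hf ⊢
  intro v
  by_cases hv : v = P
  · subst hv
    have h1 := hf v
    rw [add_single_apply_self] at h1
    have := adic_le_pred v h1 hne
    rwa [add_sub_cancel_right] at this
  · have := hf v
    rwa [add_single_apply_ne D hv] at this

/-- [S27/AR-S2] -/
theorem sgl_mem_sup_iff (h : IsFF K F) (D : Divisor K F) (P : Place K F) {t : F}
    (ht : P.adicValuation t = exp (D P + 1)) :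
    sgl P t ∈ repartitionsOf D ⊔ principalRepartitions K F ↔
      ∃ f ∈ riemannRochSpace (D + Finsupp.single P 1), f ∉ riemannRochSpace D := by
  constructor
  · intro hm
    obtain ⟨α, hα, β, hβ, hs⟩ := Submodule.mem_sup.1 hm
    obtain ⟨f, rfl⟩ := mem_principal_iff.1 hβ
    rw [mem_repOf_iff] at hα
    have hv : ∀ v, (sgl P t).1 v = α.1 v + f := by
      intro v
      rw [← hs, AR.coe_add, cst_apply]
    have hP : P.adicValuation f = exp (D P + 1) := by
      have h1 := hv P
      rw [sgl_apply_self] at h1
      have h2 : f = t - α.1 P := by rw [h1]; ring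
      rw [h2, Valuation.map_sub_eq_of_lt_left, ht]
      rw [ht]
      exact lt_of_le_of_lt (hα P) (exp_lt_exp.mpr (by omega))
    refine ⟨f, ?_, ?_⟩
    · rw [mem_L_iff]
      intro v
      by_cases hvP : v = P
      · subst hvP
        rw [add_single_apply_self, hP]
      · rw [add_single_apply_ne D hvP]
        have h1 := hv v
        rw [sgl_apply_ne hvP] at h1
        have h2 : f = - α.1 v := by
          rw [eq_neg_iff_add_eq_zero, add_comm]; exact h1.symm
        rw [h2, Valuation.map_neg]
        exact hα v
    · intro hf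
      rw [mem_L_iff] at hf
      have := hf P
      rw [hP, exp_le_exp] at this
      omega
  · rintro ⟨f, hf, hf'⟩
    have hP := adic_eq_of_mem_of_not_mem D P hf hf'
    obtain ⟨c, hc⟩ := exists_sub_smul h P ht.le hP
    rw [add_sub_cancel_right] at hc
    have e : sgl P t = (sgl P t - c • cst f) + c • cst f := by abel
    rw [e]
    apply Submodule.add_mem_sup
    · rw [mem_repOf_iff]
      intro v
      rw [coe_sub, coe_smul, cst_apply]
      by_cases hvP : v = P
      · subst hvP
        rw [sgl_apply_self]; exact hc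
      · rw [sgl_apply_ne hvP, zero_sub, Valuation.map_neg]
        apply adic_smul_le
        have := (mem_L_iff.1 hf) v
        rwa [add_single_apply_ne D hvP] at this
    · rw [← cst_smul, mem_principal_iff]
      exact ⟨_, rfl⟩

/-- [S27/AR-S3] -/
theorem L_le_sup_span (h : IsFF K F) (D : Divisor K F) (P : Place K F) {f : F}
    (hf : f ∈ riemannRochSpace (D + Finsupp.single P 1)) (hf' : f ∉ riemannRochSpace D) :
    riemannRochSpace (D + Finsupp.single P 1) ≤ riemannRochSpace D ⊔ Submodule.span K {f} := by
  intro g hg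
  have hP := adic_eq_of_mem_of_not_mem D P hf hf'
  have hgP := (mem_L_iff.1 hg) P
  rw [add_single_apply_self] at hgP
  obtain ⟨c, hc⟩ := exists_sub_smul h P hgP hP
  rw [add_sub_cancel_right] at hc
  have e : g = (g - c • f) + c • f := by abel
  rw [e]
  apply Submodule.add_mem_sup
  · rw [mem_L_iff]
    intro v
    by_cases hvP : v = P
    · subst hvP; exact hc
    · have h1 := (mem_L_iff.1 hg) v
      have h2 := (mem_L_iff.1 hf) v
      rw [add_single_apply_ne D hvP] at h1 h2
      exact (Valuation.map_sub _ _ _).trans (max_le h1 (adic_smul_le v c h2))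
  · exact Submodule.smul_mem _ _ (Submodule.mem_span_singleton_self f)

end Fermat.Agent.S27.AR
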