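import Fermat.Agent.S27.AR.NonSp

/-!
# S27, block AR : adelic Riemann-Roch (Stichtenoth I.4, I.5) and Weil differentials.   INTERFACE FILE (sub-owner: S27/AR-owner)

`K` algebraically closed of characteristic `0`, `h : IsFF K F`.  Everything here is linear algebra over `K` + `S37.IsFF.riemann`
(`∃ γ, ∀ D, γ ≤ deg D → L(D) ≠ 0`), `S37.IsFF.deg_eq_one`, `IsFF.residue_bijective`, `IsFF.hasPrincipalDivisors`, `S24.mem_iff_ord_nonneg`.
NO residues, NO Kaehler differentials, NO duality theorem.

## Proof sketch
(0) `α ∈ repartitions K F ↔ {v | v.ord (α v) < 0}.Finite` (that set of functions is already a subalgebra).  `𝔸(D) = repartitionsOf D`, `L(D) = riemannRochSpace D`.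
(1) `D ≤ D'`: `dim 𝔸(D')/𝔸(D) = deg D' - deg D` (one place at a time: `α ↦ val P (α_P * π^(D P + 1))`, residue field `= K`).
(2) `dim L(D')/L(D) ≤ deg D' - deg D`, `L(D) = 0` for `deg D < 0`, `L(0) = K` (an element without poles is constant: `y - val P y` has a zero and no pole, so it
    is `0` since `deg div = 0`).  Hence `L(D)` is finite dimensional.
(3) exact sequence `0 → L(D')/L(D) → 𝔸(D')/𝔸(D) → (𝔸(D')+F)/(𝔸(D)+F) → 0`, so
    `dim (𝔸(D')+F)/(𝔸(D)+F) = (deg D' - l D') - (deg D - l D)`.
(4) Riemann: `deg D + 1 - l D ≤ γ'` for all `D` (from `IsFF.riemann`: `l D ≥ deg D - γ + 1`: if `g ∈ L(D)`, `g ≠ 0`, choose `P` outside the support of `D` and of `div g`;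
    then `g ∉ L(D - P)`, so `l D ≥ l (D - P) + 1`; induction).  Let `g₀` be the maximum of `deg D + 1 - l D`, attained at `D₀`; it is attained at all `D ≥ D₀` (by (3) the
    quantity `deg D - l D` is monotone).
(5) `𝔸 = 𝔸(D₀) + F`: `α ∈ 𝔸(D')` for some `D' ≥ D₀`, and `dim (𝔸(D')+F)/(𝔸(D₀)+F) = 0` by (3), (4).
(6) `dim H1(D) = dim (𝔸(D')+F)/(𝔸(D)+F)` for `D' ≥ D, D₀`, `= (g₀ - 1) - (deg D - l D)`.  `D = 0`: `genusFF = g₀`.  This is `rr`.
(7) `loc`: `sgl P` is `K`-linear; `sgl P y ∈ 𝔸(D)` if `ord_P y ≥ - D P`; for `y ∈ F`, `(fun _ => y) - ∑_{P ∈ S} sgl P y ∈ 𝔸(D)`: `sum_loc`.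
(8) `H1(D) ↠ H1(D')` for `D ≤ D'`; `ω : WD D` factors through `H1(D + P)` iff `loc ω P y = 0` for all `y` with `ord_P y ≥ - D P - 1`, iff `loc ω P (π^(-(D P)-1)) = 0`
    for one uniformiser `π` (`𝔸(D+P) = 𝔸(D) + K sgl P π^(-D P - 1)`).  Hence `H1_sumPl_eq_zero_iff`.
(9) `exists_nonspecial`: by induction on `k ≤ g` find distinct `P_1..P_k ∉ T` with `dim H1(P_1+..+P_k) = g - k`: if `H1(D) ≠ 0` take `ω ≠ 0` in `WD D`; if
    `ω` factored through `H1(D + P)` for ALL `P ∉ T ∪ supp D` then it would factor through `H1(D + P_1' + ... + P_m')` for arbitrarily many distinct places, which is `0` for `m` large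
    (`rr` + (4): `dim H1(D) = 0` if `D ≥ D₀`... use: `𝔸 = 𝔸(D₀)+F` and weak form: `H1(D') = 0` as soon as `deg D' > 2 g₀ - 2`?  NOT available without duality; instead:
    infinitely many places exist; choose `D' = D + ∑ P'` and compare with `D₀` via a principal divisor: `l(D' - D₀) > 0` for `deg D'` large (Riemann), so `D' + div f ≥ D₀`,
    and `H1(D') ≅ H1(D' + div f)` (multiplication by `f`), a quotient of `H1(D₀) = 0`).
-/

set_option autoImplicit false

noncomputable section

namespace Fermat.Agent.S27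

open AlgebraicCurve Fermat.Agent.S37

variable {K F : Type*} [Field K] [Field F] [Algebra K F] [IsAlgClosed K] [CharZero K]

/-! ### values -/

theorem reg_iff {P : Place K F} {y : F} : Reg P y ↔ 0 ≤ P.ord y := S24.mem_iff_ord_nonneg P

omit [IsAlgClosed K] [CharZero K] in
theorem valAux_van_iff {P : Place K F} {y : F} :
    Van P y ↔ P.adicValuation y ≤ WithZero.exp (-1 : ℤ) := by
  rw [Place.adicValuation_le_exp_iff, neg_neg]
  exact Iff.rfl

omit [IsAlgClosed K] [CharZero K] in
theorem valAux_reg_iff {P : Place K F} {y : F} :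
    Reg P y ↔ P.adicValuation y ≤ 1 := (RiemannAux.val_le_one_iff P y).symm

omit [IsAlgClosed K] [CharZero K] in
theorem valAux_van_add {P : Place K F} {y z : F} (hy : Van P y) (hz : Van P z) : Van P (y + z) := by
  rw [valAux_van_iff] at *
  exact (Valuation.map_add _ _ _).trans (max_le hy hz)

omit [IsAlgClosed K] [CharZero K] in
theorem valAux_van_sub {P : Place K F} {y z : F} (hy : Van P y) (hz : Van P z) : Van P (y - z) := by
  rw [valAux_van_iff] at *
  exact (Valuation.map_sub _ _ _).trans (max_le hy hz)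

omit [IsAlgClosed K] [CharZero K] in
theorem valAux_van_mul {P : Place K F} {y z : F} (hy : Van P y) (hz : Reg P z) : Van P (y * z) := by
  rw [valAux_van_iff] at *
  rw [valAux_reg_iff] at hz
  rw [map_mul]
  exact (mul_le_of_le_one_right' hz).trans hy

omit [IsAlgClosed K] [CharZero K] in
theorem valAux_reg_const (P : Place K F) (c : K) : Reg P (algebraMap K F c) :=
  P.algebraMap_mem' c

omit [IsAlgClosed K] [CharZero K] in
theorem valAux_const {P : Place K F} {c : K} (hc : Van P (algebraMap K F c)) : c = 0 := by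
  by_contra h0
  have h1 := valAux_van_mul hc (valAux_reg_const P c⁻¹)
  rw [← map_mul, mul_inv_cancel₀ h0, map_one, valAux_van_iff, map_one, ← WithZero.exp_zero,
    WithZero.exp_le_exp] at h1
  omega

theorem valAux_exists (h : IsFF K F) {P : Place K F} {y : F} (hy : Reg P y) :
    ∃ c : K, Van P (y - algebraMap K F c) := by
  rw [valAux_reg_iff, ← WithZero.exp_zero] at hy
  obtain ⟨c, hc⟩ := AR.exists_sub_smul h P (t := 1) hy (by rw [map_one, WithZero.exp_zero])
  refine ⟨c, ?_⟩
  rw [valAux_van_iff, Algebra.algebraMap_eq_smul_one]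
  simpa using hc

theorem van_sub_val (h : IsFF K F) {P : Place K F} {y : F} (hy : Reg P y) :
    Van P (y - algebraMap K F (val P y)) := by
  have hex := valAux_exists h hy
  unfold val
  rw [dif_pos hex]
  exact hex.choose_spec

theorem val_eq_of_van (h : IsFF K F) {P : Place K F} {y : F} {c : K}
    (hy : Van P (y - algebraMap K F c)) : val P y = c := by
  have hex : ∃ c : K, Van P (y - algebraMap K F c) := ⟨c, hy⟩
  have h1 : Van P (y - algebraMap K F (val P y)) := by
    unfold val
    rw [dif_pos hex]
    exact hex.choose_spec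
  have h2 := valAux_van_sub hy h1
  have e : y - algebraMap K F c - (y - algebraMap K F (val P y)) =
      algebraMap K F (val P y - c) := by
    rw [map_sub]; ring
  rw [e] at h2
  exact sub_eq_zero.1 (valAux_const h2)

theorem val_add (h : IsFF K F) {P : Place K F} {y z : F} (hy : Reg P y) (hz : Reg P z) :
    val P (y + z) = val P y + val P z := by
  apply val_eq_of_van h
  have := valAux_van_add (van_sub_val h hy) (van_sub_val h hz)
  have e : y + z - algebraMap K F (val P y + val P z) =
      y - algebraMap K F (val P y) + (z - algebraMap K F (val P z)) := by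
    rw [map_add]; ring
  rwa [e]

theorem val_mul (h : IsFF K F) {P : Place K F} {y z : F} (hy : Reg P y) (hz : Reg P z) :
    val P (y * z) = val P y * val P z := by
  apply val_eq_of_van h
  have := valAux_van_add (valAux_van_mul (van_sub_val h hy) hz)
    (valAux_van_mul (van_sub_val h hz) (valAux_reg_const P (val P y)))
  have e : y * z - algebraMap K F (val P y * val P z) =
      (y - algebraMap K F (val P y)) * z +
        (z - algebraMap K F (val P z)) * algebraMap K F (val P y) := by
    rw [map_mul]; ring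
  rwa [e]

theorem val_algebraMap (h : IsFF K F) (P : Place K F) (c : K) : val P (algebraMap K F c) = c := by
  apply val_eq_of_van h
  rw [sub_self]
  exact Or.inl rfl

theorem val_eq_zero_iff (h : IsFF K F) {P : Place K F} {y : F} (hy : Reg P y) :
    val P y = 0 ↔ Van P y := by
  constructor
  · intro h0
    have := van_sub_val h hy
    rwa [h0, map_zero, sub_zero] at this
  · intro hv
    apply val_eq_of_van h
    rwa [map_zero, sub_zero]

theorem val_inv (h : IsFF K F) {P : Place K F} {y : F} (hy : P.ord y = 0) (hy0 : y ≠ 0) :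
    val P y⁻¹ = (val P y)⁻¹ := by
  have h1 : Reg P y := reg_iff.2 hy.ge
  have h2 : Reg P y⁻¹ := reg_iff.2 (by rw [Place.ord_inv, hy, neg_zero])
  have h3 := val_mul h h1 h2
  rw [mul_inv_cancel₀ hy0, ← map_one (algebraMap K F), val_algebraMap h] at h3
  exact eq_inv_of_mul_eq_one_right h3.symm

/-! ### Riemann-Roch -/

theorem finite_L (h : IsFF K F) (D : Divisor K F) : Module.Finite K (riemannRochSpace D) :=
  AR.finite_L h D

theorem finite_H1 (h : IsFF K F) (D : Divisor K F) : Module.Finite K (H1 D) :=
  AR.finite_H1 h D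

/-- **Riemann-Roch** (first form) -/
theorem rr (h : IsFF K F) (D : Divisor K F) :
    (Module.finrank K (riemannRochSpace D) : ℤ) - Module.finrank K (H1 D) =
      Divisor.degree D + 1 - genusFF K F :=
  AR.rr h D

theorem finrank_H1_mono (h : IsFF K F) {D D' : Divisor K F} (hD : D ≤ D') :
    Module.finrank K (H1 D') ≤ Module.finrank K (H1 D) :=
  AR.finrank_H1_mono h hD

/-- an element without poles is constant -/
theorem exists_eq_algebraMap (h : IsFF K F) {y : F} (hy : ∀ P : Place K F, Reg P y) :
    ∃ c : K, y = algebraMap K F c :=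
  AR.exists_eq_algebraMap' h fun P => (RiemannAux.val_le_one_iff P y).2 (hy P)

theorem infinite_place (h : IsFF K F) : Infinite (Place K F) :=
  AR.infinite_place h

/-! ### Weil differentials -/

theorem loc_add {D : Divisor K F} (ω : WD D) (P : Place K F) (y z : F) :
    loc ω P (y + z) = loc ω P y + loc ω P z := by
  unfold loc
  rw [AR.sgl_add, Submodule.Quotient.mk_add, map_add]

theorem loc_smul {D : Divisor K F} (ω : WD D) (P : Place K F) (c : K) (y : F) :
    loc ω P (algebraMap K F c * y) = c * loc ω P y := by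
  unfold loc
  rw [← Algebra.smul_def, AR.sgl_smul, Submodule.Quotient.mk_smul, map_smul, smul_eq_mul]

theorem loc_add_left {D : Divisor K F} (ω ω' : WD D) (P : Place K F) (y : F) :
    loc (ω + ω') P y = loc ω P y + loc ω' P y := rfl

theorem loc_smul_left {D : Divisor K F} (c : K) (ω : WD D) (P : Place K F) (y : F) :
    loc (c • ω) P y = c * loc ω P y := rfl

theorem loc_eq_zero {D : Divisor K F} (ω : WD D) {P : Place K F} {y : F}
    (hy : y = 0 ∨ - D P ≤ P.ord y) : loc ω P y = 0 := by
  unfold loc
  have : (Submodule.Quotient.mk (sgl P y) : H1 D) = 0 := by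
    rw [Submodule.Quotient.mk_eq_zero]
    apply Submodule.mem_sup_left
    rw [AR.sgl_mem_iff, Place.adicValuation_le_exp_iff]
    exact hy
  rw [this, map_zero]

/-- **the residue theorem** for Weil differentials -/
theorem sum_loc {D : Divisor K F} (ω : WD D) (y : F) (S : Finset (Place K F))
    (hS : ∀ P ∉ S, y = 0 ∨ - D P ≤ P.ord y) : ∑ P ∈ S, loc ω P y = 0 := by
  classical
  unfold loc
  rw [← map_sum]
  have e : (∑ P ∈ S, (Submodule.Quotient.mk (sgl P y) : H1 D)) =
      Submodule.Quotient.mk (∑ P ∈ S, sgl P y) := by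
    exact (map_sum (Submodule.mkQ _) _ _).symm
  rw [e]
  have : (Submodule.Quotient.mk (∑ P ∈ S, sgl P y) : H1 D) = 0 := by
    rw [Submodule.Quotient.mk_eq_zero]
    have e2 : (∑ P ∈ S, sgl P y) = (∑ P ∈ S, sgl P y - AR.cst y) + AR.cst y := by abel
    rw [e2]
    apply Submodule.add_mem_sup
    · rw [AR.mem_repOf_iff]
      intro v
      rw [AR.coe_sub, AR.coe_sum, AR.cst_apply]
      by_cases hv : v ∈ S
      · rw [Finset.sum_eq_single v, AR.sgl_apply_self, sub_self, map_zero]
        · exact zero_le
        · intro b _ hb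
          exact AR.sgl_apply_ne (Ne.symm hb) y
        · intro hh; exact absurd hv hh
      · rw [Finset.sum_eq_zero, zero_sub, Valuation.map_neg, Place.adicValuation_le_exp_iff]
        · exact hS v hv
        · intro b hb
          apply AR.sgl_apply_ne
          rintro rfl; exact hv hb
    · exact AR.mem_principal_iff.2 ⟨y, rfl⟩
  rw [this, map_zero]

/-- `∑ P i` (distinct places, uniformisers `π i`) is non special iff no differential of the first kind vanishes at all `P i` -/
theorem H1_sumPl_eq_zero_iff (h : IsFF K F) {n : ℕ} (P : Fin n → Place K F)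
    (hP : Function.Injective P) (π : Fin n → F) (hπ : ∀ i, (P i).ord (π i) = 1) :
    Module.finrank K (H1 (sumPl P)) = 0 ↔
      ∀ ω : WD (0 : Divisor K F), (∀ i, loc ω (P i) (π i)⁻¹ = 0) → ω = 0 :=
  AR.H1_sumPl_eq_zero_iff' h P hP π hπ

/-- non special divisors of degree `g` with distinct points avoiding a finite set -/
theorem exists_nonspecial (h : IsFF K F) (T : Set (Place K F)) (hT : T.Finite) :
    ∃ P : Fin (genusFF K F) → Place K F, Function.Injective P ∧ (∀ i, P i ∉ T) ∧
      Module.finrank K (H1 (sumPl P)) = 0 := by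
  obtain ⟨P, h1, h2, h3⟩ := AR.exists_nonspecial_aux h T hT (genusFF K F) le_rfl
  exact ⟨P, h1, h2, by omega⟩

end Fermat.Agent.S27
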