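import Fermat.Agent.S27.AR.Riem

/-!
# S27 / block AR : `H¹(D)`, Riemann-Roch          (key S27/AR-H1; helper5 fills it)

`W D = 𝔸(D) ⊔ PF`, `H1 D = 𝔸 ⧸ W D`.  `W (D + P) = W D ⊔ span {sgl P t}` (`adic_P t = exp (D P + 1)`), and `sgl P t ∈ W D ↔ L(D+P) ≠ L(D)`.
-/

set_option autoImplicit false

noncomputable section

namespace Fermat.Agent.S27.AR

open AlgebraicCurve Fermat.Agent.S37 WithZero Module

theorem finite_quot_of_eq_top {K V : Type*} [Field K] [AddCommGroup V] [Module K V]
    {p : Submodule K V} (h : p = ⊤) : Module.Finite K (V ⧸ p) := by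
  have : Subsingleton (V ⧸ p) := Submodule.Quotient.subsingleton_iff.2 h
  exact Module.Finite.of_finite

variable {K F : Type*} [Field K] [Field F] [Algebra K F]

theorem sup_mono {D D' : Divisor K F} (hD : D ≤ D') :
    repartitionsOf D ⊔ principalRepartitions K F ≤
      repartitionsOf D' ⊔ principalRepartitions K F :=
  sup_le_sup_right (repartitionsOf_mono hD) _

variable [IsAlgClosed K] [CharZero K]

theorem sup_step (h : IsFF K F) (D : Divisor K F) (P : Place K F) {t : F}
    (ht : P.adicValuation t = exp (D P + 1)) :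
    repartitionsOf (D + Finsupp.single P 1) ⊔ principalRepartitions K F =
      (repartitionsOf D ⊔ principalRepartitions K F) ⊔ Submodule.span K {sgl P t} := by
  rw [repOf_add_single h D P ht, sup_assoc, sup_assoc,
    sup_comm (Submodule.span K {sgl P t}) (principalRepartitions K F)]

theorem finite_H1 (h : IsFF K F) (D : Divisor K F) : Module.Finite K (H1 D) := by
  obtain ⟨D₀, hmax⟩ := exists_max h
  refine divisor_induction (Q := fun D => Module.Finite K (H1 D)) D₀ ?_ (fun D P => ?_) D
  · exact finite_quot_of_eq_top (sup_eq_top_of_max h hmax)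
  · obtain ⟨t, ht⟩ := exists_adic_eq P (D P + 1)
    have e := sup_step h D P ht
    change Module.Finite K (_ ⧸ _) ↔ Module.Finite K (_ ⧸ _)
    rw [e]
    exact finite_quot_sup_span_iff _ _

theorem finrank_H1_step (h : IsFF K F) (D : Divisor K F) (P : Place K F) :
    ((¬ ∃ f ∈ riemannRochSpace (D + Finsupp.single P 1), f ∉ riemannRochSpace D) →
      finrank K (H1 D) = finrank K (H1 (D + Finsupp.single P 1)) + 1) ∧
    ((∃ f ∈ riemannRochSpace (D + Finsupp.single P 1), f ∉ riemannRochSpace D) →
      finrank K (H1 (D + Finsupp.single P 1)) = finrank K (H1 D)) := by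
  obtain ⟨t, ht⟩ := exists_adic_eq P (D P + 1)
  have e := sup_step h D P ht
  have hiff := sgl_mem_sup_iff h D P ht
  constructor
  · intro hn
    have h1 := finrank_quot_sup_span _ (fun hm => hn (hiff.1 hm)) (finite_H1 h D)
    rw [h1]
    congr 1
    exact finrank_quot_congr e.symm
  · intro hy
    refine finrank_quot_congr ?_
    rw [e]
    exact sup_eq_left.2 ((Submodule.span_singleton_le_iff_mem _ _).2 (hiff.2 hy))

theorem step_eq (h : IsFF K F) (D : Divisor K F) (P : Place K F) :
    (finrank K (riemannRochSpace (D + Finsupp.single P 1)) : ℤ) -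
        finrank K (H1 (D + Finsupp.single P 1)) =
      (finrank K (riemannRochSpace D) : ℤ) - finrank K (H1 D) + 1 := by
  by_cases hc : ∃ f ∈ riemannRochSpace (D + Finsupp.single P 1), f ∉ riemannRochSpace D
  · rw [(finrank_L_step h D P).2 hc, (finrank_H1_step h D P).2 hc]
    push_cast
    ring
  · rw [(finrank_L_step h D P).1 hc, (finrank_H1_step h D P).1 hc]
    push_cast
    ring

/-- the Euler characteristic `l(D) - i(D)` -/
def chi (D : Divisor K F) : ℤ := (finrank K (riemannRochSpace D) : ℤ) - finrank K (H1 D)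

theorem chi_eq (h : IsFF K F) (D : Divisor K F) : chi D = Divisor.degree D + 1 - genusFF K F := by
  refine divisor_induction (Q := fun D => chi D = Divisor.degree D + 1 - genusFF K F) 0 ?_
    (fun D P => ?_) D
  · have e : chi (0 : Divisor K F) =
        (finrank K (riemannRochSpace (0 : Divisor K F)) : ℤ) - genusFF K F := rfl
    rw [e, finrank_L_zero h, map_zero]
    push_cast
    ring
  · have e : chi (D + Finsupp.single P 1) = chi D + 1 := step_eq h D P
    rw [e, degree_add_single h D P]
    constructor <;> intro h1 <;> linarith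

/-- **Riemann-Roch** (first form) -/
theorem rr (h : IsFF K F) (D : Divisor K F) :
    (finrank K (riemannRochSpace D) : ℤ) - finrank K (H1 D) =
      Divisor.degree D + 1 - genusFF K F := chi_eq h D

theorem finrank_H1_mono (h : IsFF K F) {D D' : Divisor K F} (hD : D ≤ D') :
    finrank K (H1 D') ≤ finrank K (H1 D) :=
  finrank_quot_le (sup_mono hD) (finite_H1 h D)

theorem finrank_H1_eq_zero_iff (h : IsFF K F) (D : Divisor K F) :
    finrank K (H1 D) = 0 ↔ repartitionsOf D ⊔ principalRepartitions K F = ⊤ :=
  finrank_quot_eq_zero_iff _ (finite_H1 h D)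

end Fermat.Agent.S27.AR
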