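import Fermat.Agent.S27.Defs

/-!
# S27 / block AR : induction principles for divisors     (key S27/AR-IND, ~120 lines, pure `Finsupp`)

`divisor_induction`: prove `∀ E D, Q D ↔ Q (D + E)` by `Finsupp.induction_linear E`: zero (`add_zero`); add (`← add_assoc`, two `Iff.trans`); single `P n`: `Int.induction_on n`
(`Finsupp.single_zero`; `single P (n+1) = single P n + single P 1` by `Finsupp.single_add`; for `-n-1`: `D + single P (-n-1) + single P 1 = D + single P (-n)`).  Then `D = D₁ + (D - D₁)`.
`divisor_induction_ge`: prove `∀ (E : Place K F →₀ ℕ) D, D₀ ≤ D → Q D → Q (D + E.mapRange (Nat.cast) rfl)` (again `Finsupp.induction_linear`, the single case by induction on `n : ℕ`;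
`D ≤ D + _`), and write `D = D₀ + ((D - D₀).mapRange Int.toNat rfl).mapRange Nat.cast rfl` (`Finsupp.ext`, `Int.toNat_of_nonneg`, `Finsupp.le_def`).
-/

set_option autoImplicit false

namespace Fermat.Agent.S27.AR

open AlgebraicCurve

variable {K F : Type*} [Field K] [Field F] [Algebra K F]

theorem indAux_iff {Q : Divisor K F → Prop}
    (hs : ∀ D P, Q D ↔ Q (D + Finsupp.single P 1)) (E : Divisor K F) :
    ∀ D, Q D ↔ Q (D + E) := by
  induction E using Finsupp.induction_linear with
  | zero => intro D; rw [add_zero]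
  | add E₁ E₂ h₁ h₂ => intro D; rw [← add_assoc]; exact (h₁ D).trans (h₂ _)
  | single P n =>
    induction n using Int.induction_on with
    | zero => intro D; rw [Finsupp.single_zero, add_zero]
    | succ n ih =>
      intro D
      rw [Finsupp.single_add, ← add_assoc]
      exact (ih D).trans (hs _ P)
    | pred n ih =>
      intro D
      have e : D + Finsupp.single P (-(n : ℤ)) =
          D + Finsupp.single P (-(n : ℤ) - 1) + Finsupp.single P 1 := by
        rw [add_assoc, ← Finsupp.single_add, sub_add_cancel]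
      rw [ih D, e]
      exact (hs _ P).symm

theorem divisor_induction {Q : Divisor K F → Prop} (D₁ : Divisor K F) (h1 : Q D₁)
    (hs : ∀ D P, Q D ↔ Q (D + Finsupp.single P 1)) (D : Divisor K F) : Q D := by
  have := (indAux_iff hs (D - D₁) D₁).1 h1
  rwa [add_sub_cancel] at this

theorem indAux_ge {Q : Divisor K F → Prop} (D₀ : Divisor K F)
    (hs : ∀ D P, D₀ ≤ D → Q D → Q (D + Finsupp.single P 1)) (E : Place K F →₀ ℕ) :
    ∀ D, D₀ ≤ D → Q D → Q (D + E.mapRange (Nat.cast : ℕ → ℤ) rfl) ∧
      D₀ ≤ D + E.mapRange (Nat.cast : ℕ → ℤ) rfl := by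
  induction E using Finsupp.induction_linear with
  | zero => intro D hD hQ; rw [Finsupp.mapRange_zero, add_zero]; exact ⟨hQ, hD⟩
  | add E₁ E₂ h₁ h₂ =>
    intro D hD hQ
    rw [Finsupp.mapRange_add (by intro a b; push_cast; rfl), ← add_assoc]
    obtain ⟨a, b⟩ := h₁ D hD hQ
    exact h₂ _ b a
  | single P n =>
    induction n with
    | zero => intro D hD hQ; rw [Finsupp.single_zero, Finsupp.mapRange_zero, add_zero]; exact ⟨hQ, hD⟩
    | succ n ih =>
      intro D hD hQ
      obtain ⟨a, b⟩ := ih D hD hQ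
      rw [Finsupp.mapRange_single] at a b ⊢
      have e : (Finsupp.single P ((n + 1 : ℕ) : ℤ) : Divisor K F) =
          Finsupp.single P (n : ℤ) + Finsupp.single P 1 := by
        rw [← Finsupp.single_add]; push_cast; rfl
      rw [e, ← add_assoc]
      refine ⟨hs _ P b a, b.trans ?_⟩
      intro v
      classical
      rw [Finsupp.add_apply _ (Finsupp.single P 1), Finsupp.single_apply]
      split_ifs <;> simp

theorem divisor_induction_ge {Q : Divisor K F → Prop} (D₀ : Divisor K F) (h0 : Q D₀)
    (hs : ∀ D P, D₀ ≤ D → Q D → Q (D + Finsupp.single P 1)) {D : Divisor K F} (hD : D₀ ≤ D) :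
    Q D := by
  have h1 := (indAux_ge D₀ hs ((D - D₀).mapRange Int.toNat rfl) D₀ le_rfl h0).1
  have e : D₀ + ((D - D₀).mapRange Int.toNat rfl).mapRange (Nat.cast : ℕ → ℤ) rfl = D := by
    ext v
    rw [Finsupp.add_apply, Finsupp.mapRange_apply, Finsupp.mapRange_apply, Finsupp.sub_apply,
      Int.toNat_of_nonneg (sub_nonneg.2 (hD v))]
    ring
  rwa [e] at h1

end Fermat.Agent.S27.AR
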