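import Fermat.Agent.S27.AR.Local

/-!
# S27 / block AR : there are infinitely many places      (key S27/AR-INF, ~100 lines)

`ord_algebraMap`: `c = 0`: `map_zero`, `Place.ord_zero`.  `c ≠ 0`: `algebraMap c` and its inverse `algebraMap c⁻¹` are in the valuation ring (`P.algebraMap_mem'`), so both have `ord ≥ 0` (`S24.mem_iff_ord_nonneg`),
and `ord (a⁻¹) = - ord a` (`Place.ord_inv`).
`exists_zero`: `obtain ⟨x, hx, hfin⟩ := h`; `y = x - algebraMap c` is transcendental (`Transcendental` is stable under subtracting a constant: if `y` is algebraic then so is `x = y + c`: `IsAlgebraic.add`, `isAlgebraic_algebraMap`),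
`K⟮y⟯ = K⟮x⟯` (`IntermediateField.adjoin_simple_eq..`: both inclusions by `IntermediateField.adjoin_simple_le_iff`, `sub_mem`/`add_mem`, `algebraMap_mem`), so `FiniteDimensional K⟮y⟯ F` (rewrite).
`S24.sum_ord_zeroPlaces y hy hfin' : ∑ᶠ v ∈ {v | 0 < v.ord y}, v.ord y = finrank > 0` (`Module.finrank_pos`); if the set were empty the `finsum` would be `0`.
`infinite_place`: `choose z hz using exists_zero`; `z` is injective: if `z c = z c' = v` then `algebraMap (c' - c) = (x - c) - (x - c')` has `adic < 1` (both terms: `0 < ord` ⟹ `adic ≤ exp (-1)`; `Valuation.map_sub`), but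
a non zero constant has `ord = 0`.  `Infinite.of_injective z`, `K` is infinite (`IsAlgClosed.instInfinite`/`CharZero` ⟹ `Infinite`).
-/

set_option autoImplicit false

namespace Fermat.Agent.S27.AR

open AlgebraicCurve Fermat.Agent.S37 WithZero

variable {K F : Type*} [Field K] [Field F] [Algebra K F]

/-- [S27/AR-INF] -/
theorem ord_algebraMap (P : Place K F) (c : K) : P.ord (algebraMap K F c) = 0 := by
  by_cases hc : c = 0
  · rw [hc, map_zero, Place.ord_zero]
  · have h1 : 0 ≤ P.ord (algebraMap K F c) := (S24.mem_iff_ord_nonneg P).1 (P.algebraMap_mem' c)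
    have h2 : 0 ≤ P.ord (algebraMap K F c⁻¹) := (S24.mem_iff_ord_nonneg P).1 (P.algebraMap_mem' c⁻¹)
    rw [map_inv₀, Place.ord_inv] at h2
    omega

variable [IsAlgClosed K] [CharZero K]

/-- [S27/AR-INF] -/
theorem exists_zero {x : F} (hx : Transcendental K x) (hfin : FiniteDimensional (IntermediateField.adjoin K {x}) F)
    (c : K) : ∃ v : Place K F, 0 < v.ord (x - algebraMap K F c) := by
  have hy : Transcendental K (x - algebraMap K F c) := by
    intro hy
    apply hx
    have := hy.add (isAlgebraic_algebraMap (A := F) c)
    rwa [sub_add_cancel] at this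
  have hE : IntermediateField.adjoin K {x - algebraMap K F c} = IntermediateField.adjoin K {x} := by
    apply le_antisymm
    · rw [IntermediateField.adjoin_simple_le_iff]
      exact sub_mem (IntermediateField.mem_adjoin_simple_self K x) (IntermediateField.algebraMap_mem _ c)
    · rw [IntermediateField.adjoin_simple_le_iff]
      have := add_mem (IntermediateField.mem_adjoin_simple_self K (x - algebraMap K F c))
        (IntermediateField.algebraMap_mem (IntermediateField.adjoin K {x - algebraMap K F c}) c)
      rwa [sub_add_cancel] at this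
  have hfin' : FiniteDimensional (IntermediateField.adjoin K {x - algebraMap K F c}) F := by
    rw [hE]; exact hfin
  have hsum := S24.sum_ord_zeroPlaces (x - algebraMap K F c) hy hfin'
  by_contra hcon
  push Not at hcon
  have hempty : {v : Place K F | 0 < v.ord (x - algebraMap K F c)} = ∅ := by
    ext v
    simp only [Set.mem_ofPred_eq, Set.mem_empty_iff_false, iff_false, not_lt]
    exact hcon v
  rw [hempty, finsum_mem_empty] at hsum
  have hpos : 0 < Module.finrank (IntermediateField.adjoin K {x - algebraMap K F c}) F :=
    Module.finrank_pos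
  omega

/-- [S27/AR-INF] -/
theorem infinite_place (h : IsFF K F) : Infinite (Place K F) := by
  obtain ⟨x, hx, hfin⟩ := h
  choose z hz using exists_zero hx hfin
  have hinj : Function.Injective z := by
    intro c c' hcc
    by_contra hne
    have h1 := hz c
    have h2 := hz c'
    rw [← hcc] at h2
    have hx1 : x - algebraMap K F c ≠ 0 := by
      intro h0
      rw [h0, Place.ord_zero] at h1
      exact lt_irrefl _ h1
    have hx2 : x - algebraMap K F c' ≠ 0 := by
      intro h0
      rw [h0, Place.ord_zero] at h2
      exact lt_irrefl _ h2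
    have h3 : (z c).adicValuation (x - algebraMap K F c) < 1 := by
      rw [(z c).adicValuation_eq_exp_neg_ord hx1, ← WithZero.exp_zero, WithZero.exp_lt_exp]
      omega
    have h4 : (z c).adicValuation (x - algebraMap K F c') < 1 := by
      rw [(z c).adicValuation_eq_exp_neg_ord hx2, ← WithZero.exp_zero, WithZero.exp_lt_exp]
      omega
    have h5 : algebraMap K F (c' - c) = (x - algebraMap K F c) - (x - algebraMap K F c') := by
      rw [map_sub]; ring
    have h6 : (z c).adicValuation (algebraMap K F (c' - c)) < 1 := by
      rw [h5]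
      exact lt_of_le_of_lt (Valuation.map_sub _ _ _) (max_lt h3 h4)
    have h7 : algebraMap K F (c' - c) ≠ 0 := by
      rw [Ne, map_eq_zero, sub_eq_zero]
      exact fun h => hne h.symm
    rw [(z c).adicValuation_eq_exp_neg_ord h7, ord_algebraMap, neg_zero, WithZero.exp_zero] at h6
    exact lt_irrefl _ h6
  exact Infinite.of_injective z hinj

end Fermat.Agent.S27.AR
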