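import Mathlib

/-!
# S27 / block AR : linear algebra      (MATHLIB ONLY)

## key S27/AR-LA1 : quotients  (~120 lines)
`f := Submodule.factor (le_sup_left : p ≤ p ⊔ K ∙ e) : V ⧸ p →ₗ V ⧸ (p ⊔ K ∙ e)` is surjective (`Submodule.factor_mk`, `Submodule.mkQ_surjective`/`Quotient.mk_surjective`), its kernel is
`K ∙ (mk e)` (`x = mk v`, `v ∈ p ⊔ K ∙ e ↔ v = a + c • e`, `Submodule.mem_sup`, `Submodule.mem_span_singleton`), of dimension `1` if `e ∉ p` (`finrank_span_singleton`, `mk e ≠ 0`).
`finite_quot_sup_span_iff`: (→) `Module.Finite.of_surjective`; (←) range and kernel finite: `Module.Finite.of_submodule_quotient`-style, or: choose a finite spanning set of the quotient, lift, add `mk e`;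
simplest: `Module.finite_of_finite_ker_range`?? search `Module.Finite.of_ker_range`/`LinearMap.finiteDimensional_of_..`; fallback: `FiniteDimensional.of_finrank..` is not available, use
`(LinearMap.quotKerEquivOfSurjective f hf)` and `Submodule.finite_of_quotient`-type lemma `Module.Finite.of_submodule_quotient (N := ker f)`.
`finrank_quot_sup_span`: `LinearMap.finrank_range_add_finrank_ker f`, `LinearMap.range_eq_top`, `finrank_top`.
`finrank_quot_congr`: `subst h; rfl`.   `finite_quot_of_le`, `finrank_quot_le`: `Submodule.factor h` surjective, `Module.Finite.of_surjective`, `LinearMap.finrank_le_finrank_of_surjective`-type lemma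
(`finrank_le_finrank_of_surjective`? use `LinearMap.finrank_range_le` + `range = ⊤`).
`finrank_quot_eq_zero_iff`: `Module.finrank_zero_iff`, `Submodule.subsingleton_quotient_iff_eq_top`.
## key S27/AR-LA2 : `finrank_of_le_sup_span`  (~50 lines)
`B = A ⊔ K ∙ f` (`le_antisymm hB (sup_le hAB (span_singleton_le_iff_mem.2 hf))`); finite: `Submodule.finite_sup`/instance; `Submodule.finrank_sup_add_finrank_inf_eq`, `A ⊓ K ∙ f = ⊥` since `f ∉ A`
(`Submodule.disjoint_span_singleton'`/direct), `finrank_span_singleton` (`f ≠ 0` as `0 ∈ A`).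
## key S27/AR-LA3 : `span_eq_top_iff_dual`  (~40 lines)
(→) `ω` vanishes on the span (`LinearMap.ext_on_range`/`Submodule.span_induction`).  (←) if `W := span ≠ ⊤` take `v ∉ W`; `Submodule.exists_le_ker_of_notMem` (or `Submodule.exists_dual_map_eq_bot_of_notMem`,
`Module.Dual` of the quotient: `Module.forall_dual_apply_eq_zero_iff K (mk v)`) gives `ω` with `ω v ≠ 0`, `W ≤ ker ω`.
-/

set_option autoImplicit false

namespace Fermat.Agent.S27.AR

open Module

variable {K V : Type*} [Field K] [AddCommGroup V] [Module K V]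

theorem laAux_factor_surjective {p p' : Submodule K V} (h : p ≤ p') :
    Function.Surjective (Submodule.factor h) := by
  intro x
  obtain ⟨v, rfl⟩ := Submodule.mkQ_surjective p' x
  exact ⟨Submodule.mkQ p v, Submodule.factor_mk h v⟩

theorem laAux_ker (p : Submodule K V) (e : V) :
    LinearMap.ker (Submodule.factor (le_sup_left : p ≤ p ⊔ Submodule.span K {e})) =
      Submodule.span K {Submodule.mkQ p e} := by
  ext x
  obtain ⟨v, rfl⟩ := Submodule.mkQ_surjective p x
  rw [LinearMap.mem_ker, Submodule.factor_mk, Submodule.mkQ_apply, Submodule.Quotient.mk_eq_zero,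
    Submodule.mem_sup, Submodule.mem_span_singleton]
  constructor
  · rintro ⟨a, ha, b, hb, rfl⟩
    obtain ⟨c, rfl⟩ := Submodule.mem_span_singleton.1 hb
    refine ⟨c, ?_⟩
    rw [map_add, map_smul, (Submodule.Quotient.mk_eq_zero p).2 ha |> fun h => (h : p.mkQ a = 0),
      zero_add]
  · rintro ⟨c, hc⟩
    refine ⟨v - c • e, ?_, c • e, Submodule.mem_span_singleton.2 ⟨c, rfl⟩, by abel⟩
    rw [← Submodule.Quotient.mk_eq_zero p]
    change p.mkQ (v - c • e) = 0
    rw [map_sub, map_smul, hc, sub_self]

theorem finite_quot_of_le {p p' : Submodule K V} (h : p ≤ p') (hfin : Module.Finite K (V ⧸ p)) :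
    Module.Finite K (V ⧸ p') :=
  Module.Finite.of_surjective (Submodule.factor h) (laAux_factor_surjective h)

theorem finite_quot_sup_span_iff (p : Submodule K V) (e : V) :
    Module.Finite K (V ⧸ p) ↔ Module.Finite K (V ⧸ (p ⊔ Submodule.span K {e})) := by
  refine ⟨finite_quot_of_le le_sup_left, fun hfin => ?_⟩
  set f := Submodule.factor (le_sup_left : p ≤ p ⊔ Submodule.span K {e}) with hf
  have h1 : Module.Finite K (LinearMap.ker f) := by
    rw [hf, laAux_ker]
    infer_instance
  have h2 : Module.Finite K ((V ⧸ p) ⧸ LinearMap.ker f) :=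
    Module.Finite.equiv (f.quotKerEquivOfSurjective (laAux_factor_surjective _)).symm
  exact Module.Finite.of_submodule_quotient (LinearMap.ker f)

theorem finrank_quot_sup_span (p : Submodule K V) {e : V} (he : e ∉ p)
    (hfin : Module.Finite K (V ⧸ p)) :
    finrank K (V ⧸ p) = finrank K (V ⧸ (p ⊔ Submodule.span K {e})) + 1 := by
  have h1 := LinearMap.finrank_range_add_finrank_ker
    (Submodule.factor (le_sup_left : p ≤ p ⊔ Submodule.span K {e}))
  rw [LinearMap.range_eq_top.2 (laAux_factor_surjective _), finrank_top, laAux_ker,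
    finrank_span_singleton] at h1
  · exact h1.symm
  · intro h0
    exact he ((Submodule.Quotient.mk_eq_zero p).1 h0)

theorem finrank_quot_congr {p p' : Submodule K V} (h : p = p') :
    finrank K (V ⧸ p) = finrank K (V ⧸ p') := by
  subst h; rfl

theorem finrank_quot_le {p p' : Submodule K V} (h : p ≤ p') (hfin : Module.Finite K (V ⧸ p)) :
    finrank K (V ⧸ p') ≤ finrank K (V ⧸ p) := by
  have h1 := LinearMap.finrank_range_le (Submodule.factor h)
  rwa [LinearMap.range_eq_top.2 (laAux_factor_surjective h), finrank_top] at h1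

theorem finrank_quot_eq_zero_iff (p : Submodule K V) (hfin : Module.Finite K (V ⧸ p)) :
    finrank K (V ⧸ p) = 0 ↔ p = ⊤ := by
  rw [Module.finrank_zero_iff, Submodule.Quotient.subsingleton_iff]

theorem finrank_of_le_sup_span {A B : Submodule K V} (hAB : A ≤ B) {f : V} (hf : f ∈ B)
    (hfA : f ∉ A) (hB : B ≤ A ⊔ Submodule.span K {f}) (hfin : Module.Finite K A) :
    Module.Finite K B ∧ finrank K B = finrank K A + 1 := by
  have hBe : B = A ⊔ Submodule.span K {f} :=
    le_antisymm hB (sup_le hAB ((Submodule.span_singleton_le_iff_mem _ _).2 hf))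
  have hf0 : f ≠ 0 := fun h0 => hfA (h0 ▸ A.zero_mem)
  have hinf : A ⊓ Submodule.span K {f} = ⊥ := by
    rw [eq_bot_iff]
    rintro x ⟨hxA, hxf⟩
    obtain ⟨c, rfl⟩ := Submodule.mem_span_singleton.1 hxf
    by_cases hc : c = 0
    · simp [hc]
    · exfalso
      apply hfA
      have := A.smul_mem c⁻¹ hxA
      rwa [smul_smul, inv_mul_cancel₀ hc, one_smul] at this
  subst hBe
  refine ⟨inferInstance, ?_⟩
  have h1 := Submodule.finrank_sup_add_finrank_inf_eq A (Submodule.span K {f})
  rw [hinf, finrank_bot, add_zero, finrank_span_singleton hf0] at h1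
  exact h1

theorem span_eq_top_iff_dual {ι : Type*} (e : ι → V) :
    Submodule.span K (Set.range e) = ⊤ ↔ ∀ ω : Module.Dual K V, (∀ i, ω (e i) = 0) → ω = 0 := by
  constructor
  · intro h ω hω
    apply LinearMap.ext_on_range h
    intro i
    rw [hω i, LinearMap.zero_apply]
  · intro h
    by_contra hne
    obtain ⟨v, hv⟩ : ∃ v, v ∉ Submodule.span K (Set.range e) := by
      by_contra hcon
      simp only [not_exists, not_not] at hcon
      exact hne (eq_top_iff.2 fun v _ => hcon v)
    obtain ⟨ω, hω, hle⟩ := Submodule.exists_le_ker_of_notMem hv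
    apply hω
    rw [h ω (fun i => hle (Submodule.subset_span ⟨i, rfl⟩)), LinearMap.zero_apply]

end Fermat.Agent.S27.AR
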