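import Fermat.Agent.S27.AR.Step
import Fermat.Agent.S27.AR.Inf
import Fermat.Agent.S27.AR.Ind
import Fermat.Agent.S27.AR.LinAlg

/-!
# S27 / block AR : the spaces `L(D) = riemannRochSpace D`

## key S27/AR-LS1 : `L_eq_bot_of_degree_neg`, `finite_L`, `finrank_L_step`  (~120 lines)
`L_eq_bot_of_degree_neg`: `f ∈ L(D)`, `f ≠ 0`; `E = D + dv h f` has `E v = D v + ord f ≥ 0` (Prelude `mem_riemannRochSpace_iff`, `dv_apply`), `degree_nonneg`, `map_add`, `degree_dv`: `0 ≤ deg D`.
`finite_L`: `haveI := infinite_place h`, `P₀ := Classical.arbitrary _`; `divisor_induction (-(single P₀ 1))`; base: degree `= -1` (`map_neg`, `RiemannAux.degree_single_one`), `L = ⊥`, finite.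
Step `Q D ↔ Q (D + P)`: (←) `L_mono (le_add_single D P)` + `Submodule.finiteDimensional_of_le` (or `Module.Finite.of_injective (Submodule.inclusion _)`); (→) by cases: if `∃ f ∈ L(D+P), f ∉ L(D)`:
`(finrank_of_le_sup_span (L_mono ..) hf hf' (L_le_sup_span h D P hf hf') hfin).1`; otherwise `L(D+P) ≤ L(D)`, same as (←).
`finrank_L_step`: first part: `L(D+P) = L(D)` (`le_antisymm`), rewrite; second: `(finrank_of_le_sup_span ..).2`.
## key S27/AR-LS2 : `exists_eq_algebraMap'`, `finrank_L_zero`  (~100 lines)
`exists_eq_algebraMap'`: a place `P₀`; `exists_sub_smul h P₀ (n := 0) (t := 1)` (`exp 0 = 1`, `map_one`): `c` with `adic_{P₀} (y - c • 1) ≤ exp (-1)`.  `z = y - c • 1`.  If `z ≠ 0`: `dv h z ≥ 0` everywhere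
(`adic z ≤ 1`: `Valuation.map_sub`, `adicValuation_algebraMap_le_one`; Prelude `adicValuation_le_one_iff`) and `dv h z P₀ ≥ 1`: `degree_pos_of` contradicts `degree_dv`.  `c • 1 = algebraMap c` (`Algebra.smul_def`, `mul_one`).
`finrank_L_zero`: `L(0) = span K {1}` (`exp 0 = 1`, `Finsupp.zero_apply`/`coe_zero`); `finrank_span_singleton one_ne_zero`.
## key S27/AR-LS3 : `finrank_L_add_dv`  (~70 lines)
`m = LinearMap.mulLeft K f` is injective; `(L(D + dv f)).map m = L(D)`: `adic (f * g) = adic f * adic g`, `adic f = exp (- ord f)`, `exp (a + b) = exp a * exp b` (`WithZero.exp_add`); surjectivity: `g = f * (f⁻¹ * g)`.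
`(Submodule.equivMapOfInjective m hinj _).finrank_eq`.
-/

set_option autoImplicit false

noncomputable section

namespace Fermat.Agent.S27.AR

open AlgebraicCurve Fermat.Agent.S37 WithZero Module

variable {K F : Type*} [Field K] [Field F] [Algebra K F] [IsAlgClosed K] [CharZero K]

/-- [S27/AR-LS1] -/
theorem L_eq_bot_of_degree_neg (h : IsFF K F) {D : Divisor K F} (hD : Divisor.degree D < 0) :
    riemannRochSpace D = ⊥ := by
  rw [eq_bot_iff]
  intro f hf
  rw [Submodule.mem_bot]
  by_contra hf0
  have h1 : 0 ≤ Divisor.degree (D + dv h f) := by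
    apply degree_nonneg h
    intro v
    rw [Finsupp.add_apply, dv_apply h hf0]
    rcases (mem_riemannRochSpace_iff.1 hf) v with h2 | h2
    · exact absurd h2 hf0
    · omega
  rw [map_add, degree_dv, add_zero] at h1
  omega

/-- [S27/AR-LS1] -/
theorem finite_L (h : IsFF K F) (D : Divisor K F) : Module.Finite K (riemannRochSpace D) := by
  haveI := infinite_place h
  let P₀ : Place K F := Classical.arbitrary _
  refine divisor_induction (Q := fun D => Module.Finite K (riemannRochSpace D))
    (-(Finsupp.single P₀ 1)) ?_ ?_ D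
  · have : riemannRochSpace (-(Finsupp.single P₀ 1) : Divisor K F) = ⊥ := by
      apply L_eq_bot_of_degree_neg h
      rw [map_neg, RiemannAux.degree_single_one h]
      omega
    show Module.Finite K (riemannRochSpace (-(Finsupp.single P₀ 1) : Divisor K F))
    rw [this]
    infer_instance
  · intro D P
    constructor
    · intro hfin
      by_cases hex : ∃ f ∈ riemannRochSpace (D + Finsupp.single P 1), f ∉ riemannRochSpace D
      · obtain ⟨f, hf, hf'⟩ := hex
        exact (finrank_of_le_sup_span (L_mono (le_add_single D P)) hf hf'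
          (L_le_sup_span h D P hf hf') hfin).1
      · push Not at hex
        exact Module.Finite.of_injective (Submodule.inclusion (fun f hf => hex f hf))
          (Submodule.inclusion_injective _)
    · intro hfin
      exact Module.Finite.of_injective (Submodule.inclusion (L_mono (le_add_single D P)))
        (Submodule.inclusion_injective _)

/-- [S27/AR-LS1] -/
theorem finrank_L_step (h : IsFF K F) (D : Divisor K F) (P : Place K F) :
    ((¬ ∃ f ∈ riemannRochSpace (D + Finsupp.single P 1), f ∉ riemannRochSpace D) →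
      finrank K (riemannRochSpace (D + Finsupp.single P 1)) = finrank K (riemannRochSpace D)) ∧
    ((∃ f ∈ riemannRochSpace (D + Finsupp.single P 1), f ∉ riemannRochSpace D) →
      finrank K (riemannRochSpace (D + Finsupp.single P 1)) =
        finrank K (riemannRochSpace D) + 1) := by
  constructor
  · intro hex
    push Not at hex
    have : riemannRochSpace (D + Finsupp.single P 1) = riemannRochSpace D :=
      le_antisymm (fun f hf => hex f hf) (L_mono (le_add_single D P))
    rw [this]
  · rintro ⟨f, hf, hf'⟩
    exact (finrank_of_le_sup_span (L_mono (le_add_single D P)) hf hf'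
      (L_le_sup_span h D P hf hf') (finite_L h D)).2

/-- [S27/AR-LS2] -/
theorem exists_eq_algebraMap' (h : IsFF K F) {y : F} (hy : ∀ P : Place K F, P.adicValuation y ≤ 1) :
    ∃ c : K, y = algebraMap K F c := by
  haveI := infinite_place h
  let P₀ : Place K F := Classical.arbitrary _
  obtain ⟨c, hc⟩ := exists_sub_smul h P₀ (y := y) (t := 1) (n := 0)
    (by rw [WithZero.exp_zero]; exact hy P₀) (by rw [WithZero.exp_zero, map_one])
  refine ⟨c, ?_⟩
  rw [Algebra.smul_def, mul_one] at hc
  by_contra hne
  have hz : y - algebraMap K F c ≠ 0 := sub_ne_zero.2 hne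
  have h1 : ∀ v, 0 ≤ dv h (y - algebraMap K F c) v := by
    intro v
    rw [dv_apply h hz]
    have h2 : v.adicValuation (y - algebraMap K F c) ≤ 1 :=
      (Valuation.map_sub _ _ _).trans (max_le (hy v) (v.adicValuation_algebraMap_le_one c))
    rcases v.adicValuation_le_one_iff.1 h2 with h3 | h3
    · exact absurd h3 hz
    · exact h3
  have h2 : 0 < dv h (y - algebraMap K F c) P₀ := by
    rw [dv_apply h hz]
    rcases P₀.adicValuation_le_exp_iff.1 hc with h3 | h3
    · exact absurd h3 hz
    · omega
  have h3 := degree_pos_of h h1 h2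
  rw [degree_dv] at h3
  exact lt_irrefl _ h3

/-- [S27/AR-LS2] -/
theorem finrank_L_zero (h : IsFF K F) : finrank K (riemannRochSpace (0 : Divisor K F)) = 1 := by
  have : riemannRochSpace (0 : Divisor K F) = Submodule.span K {(1 : F)} := by
    ext f
    rw [Submodule.mem_span_singleton]
    constructor
    · intro hf
      obtain ⟨c, hc⟩ := exists_eq_algebraMap' h (y := f) (fun P => by
        have := hf P
        rwa [Finsupp.zero_apply, WithZero.exp_zero] at this)
      exact ⟨c, by rw [hc, Algebra.smul_def, mul_one]⟩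
    · rintro ⟨c, rfl⟩
      intro v
      rw [Finsupp.zero_apply, WithZero.exp_zero, Algebra.smul_def, mul_one]
      exact v.adicValuation_algebraMap_le_one c
  rw [this, finrank_span_singleton one_ne_zero]

/-- [S27/AR-LS3] -/
theorem finrank_L_add_dv (h : IsFF K F) (D : Divisor K F) {f : F} (hf : f ≠ 0) :
    finrank K (riemannRochSpace (D + dv h f)) = finrank K (riemannRochSpace D) := by
  have hinj : Function.Injective (LinearMap.mulLeft K f) := by
    intro a b hab
    exact mul_left_cancel₀ hf hab
  have key : ∀ (g : F) (v : Place K F), v.adicValuation (f * g) ≤ exp (D v) ↔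
      v.adicValuation g ≤ exp ((D + dv h f) v) := by
    intro g v
    rw [map_mul, v.adicValuation_eq_exp_neg_ord hf, Finsupp.add_apply, dv_apply h hf,
      show D v + v.ord f = v.ord f + D v by ring, WithZero.exp_add, WithZero.exp_neg,
      inv_mul_le_iff₀ WithZero.exp_pos]
  have hmap : (riemannRochSpace (D + dv h f)).map (LinearMap.mulLeft K f) = riemannRochSpace D := by
    ext g
    rw [Submodule.mem_map]
    constructor
    · rintro ⟨g', hg', rfl⟩
      intro v
      exact (key g' v).2 (hg' v)
    · intro hg
      refine ⟨f⁻¹ * g, fun v => (key _ v).1 ?_, ?_⟩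
      · rw [mul_inv_cancel_left₀ hf]
        exact hg v
      · exact mul_inv_cancel_left₀ hf g
  rw [← hmap]
  exact (Submodule.equivMapOfInjective (LinearMap.mulLeft K f) hinj _).finrank_eq

end Fermat.Agent.S27.AR
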