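import Fermat.Agent.S27.Defs

/-!
# S27 / block AR : local lemmas at one place, divisors of functions      (sub-owner helper5)

CONVENTION OF THE WHOLE BLOCK: "`ord_P y ≥ -n` or `y = 0`" is written `P.adicValuation y ≤ exp n` (`WithZero.exp`, `P.adicValuation : Valuation F ℤᵐ⁰`), because
this is the form used in the Prelude definitions `repartitionsOf`, `riemannRochSpace`, and `Valuation.map_add`, `map_mul`, `Valuation.map_sub`, `Valuation.map_add_eq_of_lt_left` apply.
Translation: Prelude `Place.adicValuation_le_exp_iff : v.adicValuation f ≤ exp n ↔ f = 0 ∨ -n ≤ v.ord f`, `Place.adicValuation_eq_exp_neg_ord (hf : f ≠ 0)`.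
Useful: `S37.RiemannAux.{val_eq_exp, val_le_exp_iff, val_le_one_iff, val_algebraMap_le_one, val_lt_one_of_mem, le_exp_pred}` (file `S37/Riemann.lean`).

## key S27/AR-L1 : section `NoFF`  (~80 lines)
`exists_unif`: `IsDiscreteValuationRing.exists_irreducible P.toValuationSubring`, `Place.ord_coe_irreducible`.
`adic_eq_exp_iff`: `Place.adicValuation_eq_exp_neg_ord`, `WithZero.exp_injective`/`exp_inj`; `t = 0` is impossible (`map_zero`, `exp_ne_zero`).
`exists_adic_eq`: `t = π ^ (-n)` (`zpow`), `Place.ord_zpow`.   `adic_le_pred`: `RiemannAux.le_exp_pred (lt_of_le_of_ne ..)`.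
`adic_smul_le`: `Algebra.smul_def`, `map_mul`, `mul_le_of_le_one_left'`, `Place.adicValuation_algebraMap_le_one`.
## key S27/AR-L2 : `exists_sub_smul`  (~40 lines)
Copy of the middle of `S37.RiemannAux.exists_sub_smul_mem`: `t ≠ 0`, `q = y / t ∈ P.toValuationSubring` (`val_le_one_iff`, `map_div₀`, `div_le_one_of_le₀`); `h.residue_bijective P` gives `c` with
`residue q = algebraMap c`; so `q - c ∈ maximalIdeal`, `adic (q - c) < 1` (`val_lt_one_of_mem`); `y - c • t = (q - c) * t`, so `adic < exp n`; `le_exp_pred`.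
## key S27/AR-L3 : `dv`, degrees  (~100 lines)
`dv_apply`, `degree_dv`: `Exists.choose_spec` (`dif_neg hf`); for `f = 0`: `dv = 0`, `map_zero`.   `finite_ord_neg`: `f = 0`: empty (`Place.ord_zero`); else `⊆ (dv h f).support`.
`degree_nonneg`: `h.degree_eq_sum`, `Finsupp.sum`, `Finset.sum_nonneg`.   `degree_add_single`: `map_add`, `RiemannAux.degree_single_one`.
`degree_pos_of`: `D ≥ 0`, `D P > 0`: `Finset.single_le_sum`.
-/

set_option autoImplicit false

noncomputable section

namespace Fermat.Agent.S27.AR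

open AlgebraicCurve Fermat.Agent.S37 WithZero

section NoFF

variable {K F : Type*} [Field K] [Field F] [Algebra K F]

/-- [S27/AR-L1] -/
theorem exists_unif (P : Place K F) : ∃ π : F, P.ord π = 1 := by
  obtain ⟨π, hπ⟩ := IsDiscreteValuationRing.exists_irreducible P.toValuationSubring
  exact ⟨π, P.ord_coe_irreducible hπ⟩

/-- [S27/AR-L1] -/
theorem adic_eq_exp_iff (P : Place K F) {t : F} {n : ℤ} :
    P.adicValuation t = exp n ↔ t ≠ 0 ∧ P.ord t = -n := by
  constructor
  · intro h
    have ht : t ≠ 0 := by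
      rintro rfl
      rw [map_zero] at h
      exact WithZero.exp_ne_zero h.symm
    refine ⟨ht, ?_⟩
    rw [P.adicValuation_eq_exp_neg_ord ht, WithZero.exp_inj] at h
    omega
  · rintro ⟨ht, h⟩
    rw [P.adicValuation_eq_exp_neg_ord ht, h, neg_neg]

/-- [S27/AR-L1] -/
theorem exists_adic_eq (P : Place K F) (n : ℤ) : ∃ t : F, P.adicValuation t = exp n := by
  obtain ⟨π, hπ⟩ := exists_unif P
  have hπ0 : π ≠ 0 := by
    rintro rfl
    rw [Place.ord_zero] at hπ
    exact zero_ne_one hπ
  refine ⟨π ^ (-n), (adic_eq_exp_iff P).2 ⟨zpow_ne_zero _ hπ0, ?_⟩⟩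
  rw [Place.ord_zpow, hπ, mul_one]

/-- [S27/AR-L1] -/
theorem adic_le_pred (P : Place K F) {y : F} {n : ℤ} (h1 : P.adicValuation y ≤ exp n)
    (h2 : P.adicValuation y ≠ exp n) : P.adicValuation y ≤ exp (n - 1) :=
  RiemannAux.le_exp_pred (lt_of_le_of_ne h1 h2)

/-- [S27/AR-L1] -/
theorem adic_smul_le (P : Place K F) (c : K) {y : F} {n : ℤ} (h : P.adicValuation y ≤ exp n) :
    P.adicValuation (c • y) ≤ exp n := by
  rw [Algebra.smul_def, map_mul]
  exact (mul_le_of_le_one_left' (P.adicValuation_algebraMap_le_one c)).trans h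

end NoFF

variable {K F : Type*} [Field K] [Field F] [Algebra K F] [IsAlgClosed K] [CharZero K]

/-- [S27/AR-L2] the residue field is `K` -/
theorem exists_sub_smul (h : IsFF K F) (P : Place K F) {y t : F} {n : ℤ}
    (hy : P.adicValuation y ≤ exp n) (ht : P.adicValuation t = exp n) :
    ∃ c : K, P.adicValuation (y - c • t) ≤ exp (n - 1) := by
  have ht0 : t ≠ 0 := ((adic_eq_exp_iff P).1 ht).1
  have hq : y / t ∈ P.toValuationSubring := by
    rw [← RiemannAux.val_le_one_iff, map_div₀, ht]
    exact div_le_one_of_le₀ hy zero_le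
  obtain ⟨a, ha⟩ := (h.residue_bijective P).2 (IsLocalRing.residue _ ⟨y / t, hq⟩)
  refine ⟨a, ?_⟩
  have hmem : (⟨y / t, hq⟩ - algebraMap K P.toValuationSubring a : P.toValuationSubring) ∈
      IsLocalRing.maximalIdeal P.toValuationSubring := by
    rw [← IsLocalRing.residue_eq_zero_iff, map_sub, ← ha, sub_eq_zero]
    rfl
  have hlt := RiemannAux.val_lt_one_of_mem P _ hmem
  have h3 : y - a • t = (y / t - algebraMap K F a) * t := by
    rw [Algebra.smul_def]; field_simp
  have h4 : P.adicValuation (y - a • t) < exp n := by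
    rw [h3, map_mul, ht]
    have : P.adicValuation (y / t - algebraMap K F a) < 1 := hlt
    calc _ < 1 * exp n := by
          apply mul_lt_mul_of_pos_right this
          exact WithZero.exp_pos
      _ = _ := one_mul _
  exact RiemannAux.le_exp_pred h4

open Classical in
/-- the divisor of a function (`0` for `f = 0`) -/
def dv (h : IsFF K F) (f : F) : Divisor K F :=
  if hf : f = 0 then 0 else (h.hasPrincipalDivisors.exists_divisor f hf).choose

/-- [S27/AR-L3] -/
theorem dv_apply (h : IsFF K F) {f : F} (hf : f ≠ 0) (v : Place K F) : dv h f v = v.ord f := by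
  rw [dv, dif_neg hf]
  exact (h.hasPrincipalDivisors.exists_divisor f hf).choose_spec.1 v

/-- [S27/AR-L3] -/
theorem degree_dv (h : IsFF K F) (f : F) : Divisor.degree (dv h f) = 0 := by
  by_cases hf : f = 0
  · rw [dv, dif_pos hf, map_zero]
  · rw [dv, dif_neg hf]
    exact (h.hasPrincipalDivisors.exists_divisor f hf).choose_spec.2

/-- [S27/AR-L3] -/
theorem finite_ord_neg (h : IsFF K F) (f : F) : {v : Place K F | v.ord f < 0}.Finite := by
  by_cases hf : f = 0
  · subst hf
    convert Set.finite_empty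
    ext v
    simp [Place.ord_zero]
  · refine (dv h f).support.finite_toSet.subset fun v hv => ?_
    rw [Finset.mem_coe, Finsupp.mem_support_iff, dv_apply h hf]
    exact ne_of_lt hv

/-- [S27/AR-L3] -/
theorem degree_nonneg (h : IsFF K F) {D : Divisor K F} (hD : ∀ v, 0 ≤ D v) :
    0 ≤ Divisor.degree D := by
  rw [h.degree_eq_sum, Finsupp.sum]
  exact Finset.sum_nonneg fun v _ => hD v

/-- [S27/AR-L3] -/
theorem degree_pos_of (h : IsFF K F) {D : Divisor K F} (hD : ∀ v, 0 ≤ D v) {P : Place K F}
    (hP : 0 < D P) : 0 < Divisor.degree D := by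
  rw [h.degree_eq_sum, Finsupp.sum]
  exact lt_of_lt_of_le hP (Finset.single_le_sum (f := fun v => D v) (fun v _ => hD v)
    (Finsupp.mem_support_iff.2 hP.ne'))

/-- [S27/AR-L3] -/
theorem degree_add_single (h : IsFF K F) (D : Divisor K F) (P : Place K F) :
    Divisor.degree (D + Finsupp.single P 1) = Divisor.degree D + 1 := by
  rw [map_add, RiemannAux.degree_single_one h]

end Fermat.Agent.S27.AR
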