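import Fermat.Agent.S27.AR.H1

/-!
# S27 / block AR : non special divisors

## key S27/AR-LA4 : `sup_span_eq_top_iff`  (~40 lines, MATHLIB ONLY)
`(p ⊔ span (range e)).map p.mkQ = span (range (mkQ ∘ e))` (`Submodule.map_sup`, `Submodule.map_span`, `Set.range_comp`, `map mkQ p = ⊥` by `Submodule.mkQ_map_self`), and for `q ≥ p`: `q = ⊤ ↔ q.map p.mkQ = ⊤`
(`Submodule.comap_map_mkQ : comap p.mkQ (map p.mkQ q) = p ⊔ q`, `Submodule.map_top`, `Submodule.range_mkQ`).
## key S27/AR-NS1 : `degree_add_sum`, `exists_step`  (~130 lines)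
`degree_add_sum`: `map_add`, `map_sum`, `RiemannAux.degree_single_one`, `Finset.sum_const`, `Finset.card_eq_sum_ones`/`smul_eq_mul`.
`exists_step`: by contradiction: for all `P ∉ T`: `i(D+P) + 1 ≠ i(D)`, so by `(finrank_H1_step h D P).1` (contrapositive) `∃ f ∈ L(D+P), f ∉ L(D)`, so `sgl P (t P) ∈ W := 𝔸(D) ⊔ PF` (`sgl_mem_sup_iff`), `t P` chosen by
`exists_adic_eq P (D P + 1)` (`choose`).  `N` from `exists_sup_eq_top h`.  `haveI := infinite_place h`; a finset `s` of places disjoint from `T` with `card s = (N - deg D).toNat`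
(`(hT.infinite_compl).exists_subset_card_eq _`).  `E = D + ∑ P ∈ s, single P 1` has `deg E ≥ N`, so `𝔸(E) ⊔ PF = ⊤`; `𝔸(E) = 𝔸(D) ⊔ span (image) ≤ W` (`repOf_add_sum`, `Submodule.span_le`); so `W = ⊤`,
`i(D) = 0` (`finrank_H1_eq_zero_iff`): contradiction.
## key S27/AR-NS2 : `exists_nonspecial_aux`  (~120 lines)
Induction on `k`.  `k = 0`: `P = Fin.elim0`/`fun i => i.elim0`, `sumPl P = 0` (`Finset.univ_eq_empty`, `Finset.sum_empty`), `finrank H1 0 = genusFF` (`rfl`).
`k + 1 ≤ g`: `P` for `k`; `i(sumPl P) = g - k ≠ 0`; `exists_step` with `T ∪ range P` gives `P'`; new family `Fin.snoc P P'` (or `Fin.cons`): `sumPl (Fin.cons P' P) = sumPl P + single P' 1` (`Fin.sum_univ_succ`, `add_comm`),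
injective (`Fin.cons_injective_iff`).
## key S27/AR-NS3 : `H1_sumPl_eq_zero_iff'`  (~150 lines)
`s = Finset.univ.image P`, `sumPl P = 0 + ∑ Q ∈ s, single Q 1` (`Finset.sum_image` with `hP`), `t Q := if h : ∃ i, P i = Q then (π h.choose)⁻¹ else 0`, `t (P i) = (π i)⁻¹` (`hP h.choose_spec`).
`adic ((π i)⁻¹) = exp (0 + 1)` (`adic_eq_exp_iff`, `Place.ord_inv`; `π i ≠ 0` since `ord 0 = 0 ≠ 1`).  `repOf_add_sum h 0 s t` : `𝔸(sumPl P) = 𝔸(0) ⊔ span (range fun i => sgl (P i) (π i)⁻¹)` (image of the image = range).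
`finrank_H1_eq_zero_iff`, `sup_assoc/sup_comm`, `sup_span_eq_top_iff (𝔸(0) ⊔ PF) e`, `span_eq_top_iff_dual`; `loc ω P y = ω (Submodule.Quotient.mk (sgl P y))` is `rfl`.
-/

set_option autoImplicit false

noncomputable section

namespace Fermat.Agent.S27.AR

open AlgebraicCurve Fermat.Agent.S37 WithZero Module

/-- [S27/AR-LA4] -/
theorem sup_span_eq_top_iff {K V : Type*} [Field K] [AddCommGroup V] [Module K V]
    (p : Submodule K V) {ι : Type*} (e : ι → V) :
    p ⊔ Submodule.span K (Set.range e) = ⊤ ↔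
      Submodule.span K (Set.range fun i => (Submodule.Quotient.mk (e i) : V ⧸ p)) = ⊤ := by
  have h1 : Submodule.span K (Set.range fun i => (Submodule.Quotient.mk (e i) : V ⧸ p)) =
      (Submodule.span K (Set.range e)).map p.mkQ := by
    rw [Submodule.map_span, ← Set.range_comp]
    rfl
  rw [h1]
  constructor
  · intro h
    have h2 := congrArg (Submodule.map p.mkQ) h
    rwa [Submodule.map_sup, Submodule.mkQ_map_self, bot_sup_eq, Submodule.map_top,
      Submodule.range_mkQ] at h2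
  · intro h
    have h2 := Submodule.comap_map_mkQ p (Submodule.span K (Set.range e))
    rw [h, Submodule.comap_top] at h2
    exact h2.symm

variable {K F : Type*} [Field K] [Field F] [Algebra K F] [IsAlgClosed K] [CharZero K]

/-- [S27/AR-NS1] -/
theorem degree_add_sum (h : IsFF K F) (D : Divisor K F) (s : Finset (Place K F)) :
    Divisor.degree (D + ∑ P ∈ s, Finsupp.single P 1) = Divisor.degree D + s.card := by
  rw [map_add, map_sum, Finset.sum_congr rfl (fun P _ => RiemannAux.degree_single_one h P),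
    Finset.sum_const, nsmul_eq_mul, mul_one]

/-- [S27/AR-NS1] -/
theorem exists_step (h : IsFF K F) (D : Divisor K F) (hD : finrank K (H1 D) ≠ 0)
    (T : Set (Place K F)) (hT : T.Finite) :
    ∃ P ∉ T, finrank K (H1 (D + Finsupp.single P 1)) + 1 = finrank K (H1 D) := by
  classical
  by_contra hcon
  push Not at hcon
  apply hD
  rw [finrank_H1_eq_zero_iff h]
  have ht : ∀ P : Place K F, ∃ t : F, P.adicValuation t = exp (D P + 1) :=
    fun P => exists_adic_eq P (D P + 1)
  choose t ht using ht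
  have hmem : ∀ P ∉ T, sgl P (t P) ∈ repartitionsOf D ⊔ principalRepartitions K F := by
    intro P hP
    rw [sgl_mem_sup_iff h D P (ht P)]
    by_contra hno
    exact hcon P hP ((finrank_H1_step h D P).1 hno).symm
  obtain ⟨N, hN⟩ := exists_sup_eq_top h
  have := infinite_place h
  obtain ⟨s, hsT, hcard⟩ := (hT.infinite_compl).exists_subset_card_eq (N - Divisor.degree D).toNat
  have hE := hN (D + ∑ P ∈ s, Finsupp.single P 1) (by
    rw [degree_add_sum h, hcard]
    have := Int.self_le_toNat (N - Divisor.degree D)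
    omega)
  rw [repOf_add_sum h D s t (fun P _ => ht P)] at hE
  rw [eq_top_iff, ← hE]
  apply sup_le _ le_sup_right
  apply sup_le le_sup_left
  rw [Submodule.span_le]
  rintro _ ⟨P, hP, rfl⟩
  exact hmem P (hsT hP)

omit [IsAlgClosed K] [CharZero K] in
theorem sumPl_cons {n : ℕ} (P : Fin n → Place K F) (Q : Place K F) :
    sumPl (Fin.cons Q P : Fin (n + 1) → Place K F) = sumPl P + Finsupp.single Q 1 := by
  unfold sumPl
  rw [Fin.sum_univ_succ, add_comm]
  simp only [Fin.cons_zero, Fin.cons_succ]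

/-- [S27/AR-NS2] -/
theorem exists_nonspecial_aux (h : IsFF K F) (T : Set (Place K F)) (hT : T.Finite) (k : ℕ)
    (hk : k ≤ genusFF K F) :
    ∃ P : Fin k → Place K F, Function.Injective P ∧ (∀ i, P i ∉ T) ∧
      finrank K (H1 (sumPl P)) + k = genusFF K F := by
  induction k with
  | zero =>
    refine ⟨fun i => i.elim0, fun i => i.elim0, fun i => i.elim0, ?_⟩
    have : sumPl (fun i : Fin 0 => (i.elim0 : Place K F)) = 0 := by
      unfold sumPl
      rw [Finset.univ_eq_empty, Finset.sum_empty]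
    rw [this, add_zero]
    rfl
  | succ k ih =>
    obtain ⟨P, hinj, hPT, hfin⟩ := ih (by omega)
    obtain ⟨Q, hQ, hstep⟩ := exists_step h (sumPl P) (by omega) (T ∪ Set.range P)
      (hT.union (Set.finite_range P))
    refine ⟨Fin.cons Q P, ?_, ?_, ?_⟩
    · rw [Fin.cons_injective_iff]
      exact ⟨fun hm => hQ (Or.inr hm), hinj⟩
    · intro i
      refine Fin.cases ?_ (fun j => ?_) i
      · rw [Fin.cons_zero]; exact fun hm => hQ (Or.inl hm)
      · rw [Fin.cons_succ]; exact hPT j
    · rw [sumPl_cons]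
      omega

/-- [S27/AR-NS3] -/
theorem H1_sumPl_eq_zero_iff' (h : IsFF K F) {n : ℕ} (P : Fin n → Place K F)
    (hP : Function.Injective P) (π : Fin n → F) (hπ : ∀ i, (P i).ord (π i) = 1) :
    finrank K (H1 (sumPl P)) = 0 ↔
      ∀ ω : WD (0 : Divisor K F), (∀ i, loc ω (P i) (π i)⁻¹ = 0) → ω = 0 := by
  classical
  set s : Finset (Place K F) := Finset.univ.image P with hs
  have e1 : sumPl P = 0 + ∑ Q ∈ s, Finsupp.single Q 1 := by
    rw [zero_add, hs, Finset.sum_image (fun a _ b _ hab => hP hab)]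
    rfl
  set t : Place K F → F := fun Q => if hq : ∃ i, P i = Q then (π hq.choose)⁻¹ else 0 with htdef
  have ht : ∀ i, t (P i) = (π i)⁻¹ := by
    intro i
    have hq : ∃ j, P j = P i := ⟨i, rfl⟩
    rw [htdef]
    simp only [dif_pos hq]
    rw [hP hq.choose_spec]
  have hπ0 : ∀ i, π i ≠ 0 := by
    intro i h0
    have := hπ i
    rw [h0, Place.ord_zero] at this
    exact zero_ne_one this
  have hts : ∀ Q ∈ s, Q.adicValuation (t Q) = exp ((0 : Divisor K F) Q + 1) := by
    intro Q hQ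
    rw [hs, Finset.mem_image] at hQ
    obtain ⟨i, _, rfl⟩ := hQ
    rw [ht, adic_eq_exp_iff]
    refine ⟨inv_ne_zero (hπ0 i), ?_⟩
    rw [Place.ord_inv, hπ i, Finsupp.zero_apply, zero_add]
  have e2 : (fun Q => sgl Q (t Q)) '' (s : Set (Place K F)) =
      Set.range fun i => sgl (P i) (π i)⁻¹ := by
    rw [hs, Finset.coe_image, Finset.coe_univ, Set.image_univ, ← Set.range_comp]
    congr 1
    funext i
    show sgl (P i) (t (P i)) = _
    rw [ht]
  rw [finrank_H1_eq_zero_iff h, e1, repOf_add_sum h 0 s t hts, e2, sup_assoc,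
    sup_comm (Submodule.span K _), ← sup_assoc, sup_span_eq_top_iff, span_eq_top_iff_dual]
  rfl

end Fermat.Agent.S27.AR
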