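import Fermat.Agent.S27.AR.Local

/-!
# S27 / block AR : repartitions       (`𝔸 = ↥(repartitions K F)`, `𝔸(D) = repartitionsOf D`, `cst f` = principal repartition)

## key S27/AR-R1 : `sgl`, `cst` API  (~120 lines, formal)
Everything is `Subtype.ext; funext v; by_cases v = P` (`sgl` is an `if`; `classical`).  `coe_*` are `rfl` (try `rfl`; the `K`-action on the `F`-subalgebra is `Subalgebra.module'`, `(c • α).1 = c • α.1`, `Pi.smul_apply`).
`coe_sum`: `Finset.induction_on` / `map_sum` of the `AddMonoidHom` `α ↦ α.1 v`.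
`sgl_mem_iff`: unfold (`Iff.rfl`-style `show ∀ v, ..`): at `v = P` the condition, at `v ≠ P`: `map_zero`, `zero_le'`.   `cst_mem_iff`: `Iff.rfl`.   `mem_principal_iff`: Prelude `mem_principalRepartitions_iff`.
## key S27/AR-R2 : `finite_poles`, `exists_ge_mem`  (~120 lines)
`finite_poles`: `α.2 : α.1 ∈ Algebra.adjoin F {β | {v | ¬ adic (β v) ≤ 1}.Finite}`; `Algebra.adjoin_induction` with the predicate `{v | ¬ v.adicValuation (β v) ≤ 1}.Finite`:
mem: given; algebraMap `f`: constant function, `finite_ord_neg h f` + Prelude `Place.not_adicValuation_le_one_iff`; add: `⊆` union (`Valuation.map_add`, `max_le`); mul: `⊆` union (`map_mul`, `mul_le_one'`).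
`exists_ge_mem`: `s = (finite_poles h α).toFinset`, `D = D₀ + ∑ v ∈ s, single v (|D₀ v| + |v.ord (α.1 v)|)`... simpler: `D := D₀⁺-part + E` with
`E = Finsupp.onFinset s (fun v => max 0 (- v.ord (α.1 v) - D₀ v)) _`, `D = D₀ + E`; check with Prelude `mem_repartitionsOf_iff`: for `v ∈ s`: `-(D₀ v + E v) ≤ ord`; for `v ∉ s`: `ord ≥ 0`... CAREFUL: for `v ∉ s` one needs
`- D₀ v ≤ ord`, false if `D₀ v < 0`.  So take `s = poles ∪ D₀.support` and `E v = max 0 (- ord - D₀ v)` on `s`; for `v ∉ s`: `D₀ v = 0`, `ord ≥ 0`.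
-/

set_option autoImplicit false

noncomputable section

namespace Fermat.Agent.S27.AR

open AlgebraicCurve Fermat.Agent.S37 WithZero

section NoFF

variable {K F : Type*} [Field K] [Field F] [Algebra K F]

/-- [S27/AR-R1] -/
theorem coe_smul (c : K) (α : ↥(repartitions K F)) (v : Place K F) :
    (c • α : ↥(repartitions K F)).1 v = c • α.1 v := rfl

/-- [S27/AR-R1] -/
theorem coe_add (α β : ↥(repartitions K F)) (v : Place K F) : (α + β).1 v = α.1 v + β.1 v := rfl

/-- [S27/AR-R1] -/
theorem coe_sub (α β : ↥(repartitions K F)) (v : Place K F) : (α - β).1 v = α.1 v - β.1 v := rfl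

/-- [S27/AR-R1] -/
theorem coe_sum {ι : Type*} (s : Finset ι) (α : ι → ↥(repartitions K F)) (v : Place K F) :
    (∑ i ∈ s, α i).1 v = ∑ i ∈ s, (α i).1 v := by
  classical
  induction s using Finset.induction_on with
  | empty => rfl
  | insert a s ha ih => rw [Finset.sum_insert ha, Finset.sum_insert ha, coe_add, ih]

/-- [S27/AR-R1] -/
theorem sgl_apply_self (P : Place K F) (y : F) : (sgl P y).1 P = y := by
  classical
  show (if P = P then y else 0) = y
  rw [if_pos rfl]

/-- [S27/AR-R1] -/
theorem sgl_apply_ne {P v : Place K F} (h : v ≠ P) (y : F) : (sgl P y).1 v = 0 := by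
  classical
  show (if v = P then y else 0) = 0
  rw [if_neg h]

/-- [S27/AR-R1] -/
theorem sgl_add (P : Place K F) (y z : F) : sgl P (y + z) = sgl P y + sgl P z := by
  apply Subtype.ext
  funext v
  rw [coe_add]
  by_cases hv : v = P
  · subst hv
    rw [sgl_apply_self, sgl_apply_self, sgl_apply_self]
  · rw [sgl_apply_ne hv, sgl_apply_ne hv, sgl_apply_ne hv, add_zero]

/-- [S27/AR-R1] -/
theorem sgl_smul (P : Place K F) (c : K) (y : F) : sgl P (c • y) = c • sgl P y := by
  apply Subtype.ext
  funext v
  rw [coe_smul]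
  by_cases hv : v = P
  · subst hv
    rw [sgl_apply_self, sgl_apply_self]
  · rw [sgl_apply_ne hv, sgl_apply_ne hv, smul_zero]

/-- [S27/AR-R1] -/
theorem sgl_mem_iff (D : Divisor K F) (P : Place K F) (y : F) :
    sgl P y ∈ repartitionsOf D ↔ P.adicValuation y ≤ exp (D P) := by
  show (∀ v : Place K F, v.adicValuation ((sgl P y).1 v) ≤ exp (D v)) ↔ _
  constructor
  · intro h
    have := h P
    rwa [sgl_apply_self] at this
  · intro h v
    by_cases hv : v = P
    · subst hv
      rwa [sgl_apply_self]
    · rw [sgl_apply_ne hv, map_zero]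
      exact zero_le

/-- the principal repartition of `f` -/
def cst (f : F) : ↥(repartitions K F) := algebraMap F ↥(repartitions K F) f

/-- [S27/AR-R1] -/
theorem cst_apply (f : F) (v : Place K F) : (cst f : ↥(repartitions K F)).1 v = f := rfl

/-- [S27/AR-R1] -/
theorem cst_smul (c : K) (f : F) : (cst (c • f) : ↥(repartitions K F)) = c • cst f := by
  apply Subtype.ext
  funext v
  rw [coe_smul, cst_apply, cst_apply]

/-- [S27/AR-R1] -/
theorem mem_principal_iff {α : ↥(repartitions K F)} :
    α ∈ principalRepartitions K F ↔ ∃ f : F, α = cst f := by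
  rw [mem_principalRepartitions_iff]
  constructor
  · rintro ⟨f, hf⟩
    exact ⟨f, Subtype.ext hf⟩
  · rintro ⟨f, rfl⟩
    exact ⟨f, rfl⟩

/-- [S27/AR-R1] -/
theorem cst_mem_iff (D : Divisor K F) (f : F) :
    (cst f : ↥(repartitions K F)) ∈ repartitionsOf D ↔ f ∈ riemannRochSpace D := Iff.rfl

/-- [S27/AR-R1] -/
theorem mem_repOf_iff {D : Divisor K F} {α : ↥(repartitions K F)} :
    α ∈ repartitionsOf D ↔ ∀ v : Place K F, v.adicValuation (α.1 v) ≤ exp (D v) := Iff.rfl

theorem mem_L_iff {D : Divisor K F} {f : F} :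
    f ∈ riemannRochSpace D ↔ ∀ v : Place K F, v.adicValuation f ≤ exp (D v) := Iff.rfl

theorem L_mono {D D' : Divisor K F} (h : D ≤ D') : riemannRochSpace D ≤ riemannRochSpace D' :=
  fun _ hf v => (hf v).trans (exp_le_exp.mpr (Finsupp.le_def.mp h v))

end NoFF

variable {K F : Type*} [Field K] [Field F] [Algebra K F] [IsAlgClosed K] [CharZero K]

/-- [S27/AR-R2] -/
theorem finite_poles (h : IsFF K F) (α : ↥(repartitions K F)) :
    {v : Place K F | v.ord (α.1 v) < 0}.Finite := by
  have key : ∀ β : Place K F → F, β ∈ repartitions K F →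
      {v : Place K F | ¬ v.adicValuation (β v) ≤ 1}.Finite := by
    intro β hβ
    induction hβ using Algebra.adjoin_induction with
    | mem x hx => exact hx
    | algebraMap f =>
      refine (finite_ord_neg h f).subset fun v hv => ?_
      exact v.not_adicValuation_le_one_iff.1 hv
    | add x y _ _ hx hy =>
      refine (hx.union hy).subset fun v hv => ?_
      by_contra hcon
      rw [Set.mem_union, not_or] at hcon
      apply hv
      have h1 : v.adicValuation (x v) ≤ 1 := not_not.1 hcon.1
      have h2 : v.adicValuation (y v) ≤ 1 := not_not.1 hcon.2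
      exact (Valuation.map_add _ _ _).trans (max_le h1 h2)
    | mul x y _ _ hx hy =>
      refine (hx.union hy).subset fun v hv => ?_
      by_contra hcon
      rw [Set.mem_union, not_or] at hcon
      apply hv
      have h1 : v.adicValuation (x v) ≤ 1 := not_not.1 hcon.1
      have h2 : v.adicValuation (y v) ≤ 1 := not_not.1 hcon.2
      show v.adicValuation (x v * y v) ≤ 1
      rw [map_mul]
      exact mul_le_one' h1 h2
  refine (key α.1 α.2).subset fun v hv => ?_
  exact v.not_adicValuation_le_one_iff.2 hv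

/-- [S27/AR-R2] -/
theorem exists_ge_mem (h : IsFF K F) (α : ↥(repartitions K F)) (D₀ : Divisor K F) :
    ∃ D, D₀ ≤ D ∧ α ∈ repartitionsOf D := by
  classical
  set s : Finset (Place K F) := (finite_poles h α).toFinset ∪ D₀.support with hs
  let E : Divisor K F := Finsupp.onFinset s
    (fun v => if v ∈ s then max 0 (- v.ord (α.1 v) - D₀ v) else 0) (by
      intro v hv
      by_contra hcon
      exact hv (if_neg hcon))
  have hE : ∀ v, E v = if v ∈ s then max 0 (- v.ord (α.1 v) - D₀ v) else 0 := fun v => rfl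
  refine ⟨D₀ + E, ?_, ?_⟩
  · rw [Finsupp.le_def]
    intro v
    rw [Finsupp.add_apply, hE]
    split_ifs
    · have := le_max_left 0 (- v.ord (α.1 v) - D₀ v)
      omega
    · omega
  · rw [mem_repartitionsOf_iff]
    intro v
    right
    rw [Finsupp.add_apply, hE]
    split_ifs with hv
    · have := le_max_right 0 (- v.ord (α.1 v) - D₀ v)
      omega
    · rw [hs, Finset.mem_union, not_or, Set.Finite.mem_toFinset, Finsupp.notMem_support_iff] at hv
      have h1 : ¬ v.ord (α.1 v) < 0 := hv.1
      have h2 := hv.2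
      omega

end Fermat.Agent.S27.AR
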