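import Fermat.Agent.S27.AR.LSpace

/-!
# S27 / block AR : Riemann's theorem, `𝔸 = 𝔸(D) + F` for `deg D` large

`rq D = deg D - l(D)`.

## key S27/AR-RM1 : `rq_step`, `rq_mono`, `rq_add_dv`  (~80 lines)
`rq_step`: `degree_add_single`, `finrank_L_step`, by cases on `∃ f ..`; `omega` after `push_cast`.   `rq_mono`: `divisor_induction_ge D (le_refl _)` with `Q D' := rq D ≤ rq D'`.   `rq_add_dv`: `map_add`, `degree_dv`, `finrank_L_add_dv`.
## key S27/AR-RM2 : `rq_le`, `exists_max`  (~150 lines)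
`obtain ⟨γ, hγ⟩ := h.riemann` (`∀ D, γ ≤ deg D → ∃ g ≠ 0, ∀ v, 0 ≤ D v + v.ord g`).  CLAIM `∀ n : ℕ, ∀ D, deg D = γ - 1 + n → n ≤ l(D)` by induction: `n + 1`: `g` from `hγ`; a place `P ∉ D.support ∪ (dv h g).support`
(`infinite_place`, `Infinite.exists_notMem_finset`); `D' = D - single P 1`, `D = D' + single P 1` (`sub_add_cancel`), `deg D' = γ - 1 + n`; `g ∈ L(D)` (Prelude `mem_riemannRochSpace_iff`), `g ∉ L(D')` (at `P`: `D' P = -1`, `ord g = 0`);
`(finrank_L_step h D' P).2`.  Then `rq D ≤ max (γ - 1) ..`: if `γ - 1 ≤ deg D`, `n = (deg D - γ + 1).toNat`: `rq D ≤ γ - 1`; otherwise `rq D ≤ deg D < γ - 1`.  So the bound `γ - 1` works.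
`exists_max`: `Int.exists_greatest_of_bdd` for `P z := ∃ D, rq D = z`.
## key S27/AR-RM3 : `sup_eq_top_of_max`  (~100 lines)
`W = 𝔸(D₀) ⊔ PF`.  `divisor_induction_ge D₀` with `Q D := 𝔸(D) ≤ W`: step: `D₀ ≤ D`: `rq D₀ ≤ rq D ≤ rq (D+P) ≤ rq D₀` (`rq_mono`, `rq_step`, `hmax`), so `rq (D+P) = rq D`, so `∃ f ∈ L(D+P) ∖ L(D)` (`rq_step`), so with `t` from
`exists_adic_eq P (D P + 1)`: `sgl P t ∈ 𝔸(D) ⊔ PF ≤ W` (`sgl_mem_sup_iff`, `sup_le hQ le_sup_right`), and `𝔸(D+P) = 𝔸(D) ⊔ span {sgl P t} ≤ W` (`repOf_add_single`).  Finally `eq_top_iff`: `α ∈ 𝔸(D)`, `D ≥ D₀` (`exists_ge_mem`).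
## key S27/AR-RM4 : `exists_sup_eq_top`  (~70 lines)
`D₀` from `exists_max`, `γ` from `h.riemann`, `N = γ + deg D₀`.  `deg (D - D₀) ≥ γ`: `f ≠ 0`, `0 ≤ (D - D₀) v + ord f`, i.e. `D₀ ≤ D + dv h f`.  `rq D = rq (D + dv h f) ≥ rq D₀`, so `D` is a maximiser as well: `sup_eq_top_of_max`.
-/

set_option autoImplicit false

noncomputable section

namespace Fermat.Agent.S27.AR

open AlgebraicCurve Fermat.Agent.S37 WithZero Module

variable {K F : Type*} [Field K] [Field F] [Algebra K F]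

/-- `deg D - l(D)` -/
def rq (D : Divisor K F) : ℤ := Divisor.degree D - finrank K (riemannRochSpace D)

variable [IsAlgClosed K] [CharZero K]

/-- [S27/AR-RM1] -/
theorem rq_step (h : IsFF K F) (D : Divisor K F) (P : Place K F) :
    rq D ≤ rq (D + Finsupp.single P 1) ∧ (rq (D + Finsupp.single P 1) = rq D ↔
      ∃ f ∈ riemannRochSpace (D + Finsupp.single P 1), f ∉ riemannRochSpace D) := by
  have h1 := degree_add_single h D P
  have h2 := finrank_L_step h D P
  unfold rq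
  by_cases hf : ∃ f ∈ riemannRochSpace (D + Finsupp.single P 1), f ∉ riemannRochSpace D
  · have h3 := h2.2 hf
    rw [h1, h3]
    push_cast
    refine ⟨by omega, ⟨fun _ => hf, fun _ => by omega⟩⟩
  · have h3 := h2.1 hf
    rw [h1, h3]
    refine ⟨by omega, ⟨fun h4 => by omega, fun h4 => absurd h4 hf⟩⟩

/-- [S27/AR-RM1] -/
theorem rq_mono (h : IsFF K F) {D D' : Divisor K F} (hD : D ≤ D') : rq D ≤ rq D' :=
  divisor_induction_ge (Q := fun D' => rq D ≤ rq D') D le_rfl
    (fun E P _ hE => hE.trans (rq_step h E P).1) hD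

/-- [S27/AR-RM1] -/
theorem rq_add_dv (h : IsFF K F) (D : Divisor K F) {f : F} (hf : f ≠ 0) :
    rq (D + dv h f) = rq D := by
  unfold rq
  rw [map_add, degree_dv, finrank_L_add_dv h D hf, add_zero]

theorem rm2Aux_le (h : IsFF K F) {γ : ℤ} (hγ : ∀ D : Divisor K F, γ ≤ Divisor.degree D →
    ∃ g : F, g ≠ 0 ∧ ∀ v : Place K F, 0 ≤ D v + v.ord g) :
    ∀ n : ℕ, ∀ D : Divisor K F, Divisor.degree D = γ - 1 + n →
      n ≤ finrank K (riemannRochSpace D) := by
  classical
  intro n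
  induction n with
  | zero => intro D _; exact Nat.zero_le _
  | succ n ih =>
    intro D hD
    obtain ⟨g, hg0, hg⟩ := hγ D (by rw [hD]; push_cast; omega)
    have := infinite_place h
    obtain ⟨P, hP⟩ := Infinite.exists_notMem_finset (D.support ∪ (dv h g).support)
    rw [Finset.notMem_union, Finsupp.notMem_support_iff, Finsupp.notMem_support_iff,
      dv_apply h hg0] at hP
    obtain ⟨hP1, hP2⟩ := hP
    set D' : Divisor K F := D - Finsupp.single P 1 with hD'
    have e : D' + Finsupp.single P 1 = D := sub_add_cancel _ _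
    have hdeg : Divisor.degree D' = γ - 1 + n := by
      have := degree_add_single h D' P
      rw [e, hD] at this
      push_cast at this
      omega
    have h1 := ih D' hdeg
    have hgD : g ∈ riemannRochSpace (D' + Finsupp.single P 1) := by
      rw [e, mem_riemannRochSpace_iff]
      intro v
      right
      have := hg v
      omega
    have hgD' : g ∉ riemannRochSpace D' := by
      rw [mem_riemannRochSpace_iff]
      intro hh
      rcases hh P with h0 | h0
      · exact hg0 h0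
      · rw [hD', Finsupp.sub_apply, Finsupp.single_eq_same, hP1, hP2] at h0
        omega
    have h2 := (finrank_L_step h D' P).2 ⟨g, hgD, hgD'⟩
    rw [e] at h2
    omega

/-- [S27/AR-RM2] Riemann's inequality -/
theorem rq_le (h : IsFF K F) : ∃ γ : ℤ, ∀ D : Divisor K F, rq D ≤ γ := by
  obtain ⟨γ, hγ⟩ := h.riemann
  refine ⟨γ - 1, fun D => ?_⟩
  unfold rq
  by_cases hD : γ - 1 ≤ Divisor.degree D
  · have h1 := rm2Aux_le h hγ (Divisor.degree D - γ + 1).toNat D (by
      rw [Int.toNat_of_nonneg (by omega)]; ring)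
    have h2 : ((Divisor.degree D - γ + 1).toNat : ℤ) ≤ (finrank K (riemannRochSpace D) : ℤ) := by
      exact_mod_cast h1
    rw [Int.toNat_of_nonneg (by omega)] at h2
    omega
  · have : (0 : ℤ) ≤ (finrank K (riemannRochSpace D) : ℤ) := Int.natCast_nonneg _
    omega

/-- [S27/AR-RM2] -/
theorem exists_max (h : IsFF K F) : ∃ D₀ : Divisor K F, ∀ D : Divisor K F, rq D ≤ rq D₀ := by
  obtain ⟨γ, hγ⟩ := rq_le h
  obtain ⟨z, ⟨D₀, hD₀⟩, hz⟩ := Int.exists_greatest_of_bdd (P := fun z => ∃ D : Divisor K F, rq D = z)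
    ⟨γ, fun z ⟨D, hD⟩ => hD ▸ hγ D⟩ ⟨rq (0 : Divisor K F), 0, rfl⟩
  exact ⟨D₀, fun D => hD₀ ▸ hz (rq D) ⟨D, rfl⟩⟩

/-- [S27/AR-RM3] -/
theorem sup_eq_top_of_max (h : IsFF K F) {D₀ : Divisor K F} (hmax : ∀ D : Divisor K F, rq D ≤ rq D₀) :
    repartitionsOf D₀ ⊔ principalRepartitions K F = ⊤ := by
  set W := repartitionsOf D₀ ⊔ principalRepartitions K F with hW
  have key : ∀ {D : Divisor K F}, D₀ ≤ D → repartitionsOf D ≤ W := by
    intro D hD
    refine divisor_induction_ge (Q := fun D => repartitionsOf D ≤ W) D₀ le_sup_left ?_ hD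
    intro D P hD hQ
    have h1 := rq_mono h hD
    have h2 := (rq_step h D P).1
    have h3 := hmax (D + Finsupp.single P 1)
    have h4 : rq (D + Finsupp.single P 1) = rq D := by omega
    have h5 := (rq_step h D P).2.1 h4
    obtain ⟨t, ht⟩ := exists_adic_eq P (D P + 1)
    have h6 : sgl P t ∈ W :=
      (sup_le hQ le_sup_right : repartitionsOf D ⊔ principalRepartitions K F ≤ W)
        ((sgl_mem_sup_iff h D P ht).2 h5)
    rw [repOf_add_single h D P ht]
    refine sup_le hQ ?_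
    rw [Submodule.span_le, Set.singleton_subset_iff]
    exact h6
  rw [eq_top_iff]
  intro α _
  obtain ⟨D, hD, hα⟩ := exists_ge_mem h α D₀
  exact key hD hα

/-- [S27/AR-RM4] -/
theorem exists_sup_eq_top (h : IsFF K F) : ∃ N : ℤ, ∀ D : Divisor K F, N ≤ Divisor.degree D →
    repartitionsOf D ⊔ principalRepartitions K F = ⊤ := by
  obtain ⟨D₀, hD₀⟩ := exists_max h
  obtain ⟨γ, hγ⟩ := h.riemann
  refine ⟨γ + Divisor.degree D₀, fun D hD => ?_⟩
  obtain ⟨f, hf0, hf⟩ := hγ (D - D₀) (by rw [map_sub]; omega)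
  have h1 : D₀ ≤ D + dv h f := by
    intro v
    have := hf v
    rw [Finsupp.sub_apply] at this
    rw [Finsupp.add_apply, dv_apply h hf0]
    omega
  have h2 := rq_mono h h1
  rw [rq_add_dv h D hf0] at h2
  exact sup_eq_top_of_max h (fun E => (hD₀ E).trans h2)

end Fermat.Agent.S27.AR
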